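import Fermat.Agent.LT.Level.Local
import Fermat.Agent.LT.RProd
import Fermat.Agent.LT.Level

/-!
# The levels `D = G(𝔸_f)/U` (definitions) (helper34)

* `Cos H = GL₂(E)/(H E^×)`, `Cos.mk_eq_iff`, `Cos.scalar_smul`;
* `Lev F`: a compact open `U = ∏ U v`, `U v ≤ GL₂(O_v)` with equality for almost all `v`;
* `Dv U v = Cos (U.U v)`, `base U v = 1`, `D U = RProd (Dv U) (base U)`;
* `GL₂(F)` acts on `Dv U v` (through `gmap v : GL₂(F) → GL₂(F_v)`) and on `D U`.
-/

set_option autoImplicit false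

open Matrix NumberField IsDedekindDomain WithZero
open scoped WithZero

noncomputable section

namespace Fermat.Agent.LT.Lvl

/-! ### Coset spaces -/

section Cos

variable {E : Type*} [Field E]

/-- The set `GL₂(E)/(H E^×)`. -/
abbrev Cos (H : Subgroup (GL (Fin 2) E)) : Type _ :=
  GL (Fin 2) E ⧸ (H ⊔ Subgroup.center (GL (Fin 2) E))

theorem mem_sup_center {H : Subgroup (GL (Fin 2) E)} {g : GL (Fin 2) E} :
    g ∈ H ⊔ Subgroup.center (GL (Fin 2) E) ↔
      ∃ z : Eˣ, ∃ k ∈ H, g = GeneralLinearGroup.scalar (Fin 2) z * k := by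
  rw [sup_comm, Subgroup.mem_sup_of_normal_left]
  constructor
  · rintro ⟨y, hy, k, hk, rfl⟩
    rw [GeneralLinearGroup.center_eq_range_scalar] at hy
    obtain ⟨z, rfl⟩ := hy
    exact ⟨z, k, hk, rfl⟩
  · rintro ⟨z, k, hk, rfl⟩
    refine ⟨_, ?_, k, hk, rfl⟩
    rw [GeneralLinearGroup.center_eq_range_scalar]
    exact ⟨z, rfl⟩

theorem scalar_mul_comm (z : Eˣ) (g : GL (Fin 2) E) :
    GeneralLinearGroup.scalar (Fin 2) z * g = g * GeneralLinearGroup.scalar (Fin 2) z := by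
  have h : GeneralLinearGroup.scalar (Fin 2) z ∈ Subgroup.center (GL (Fin 2) E) := by
    rw [GeneralLinearGroup.center_eq_range_scalar]
    exact ⟨z, rfl⟩
  exact ((Subgroup.mem_center_iff.mp h) g).symm

variable (H : Subgroup (GL (Fin 2) E))

/-- the class of `g`. -/
abbrev Cos.mk (g : GL (Fin 2) E) : Cos H := QuotientGroup.mk g

variable {H}

theorem Cos.mk_surjective (d : Cos H) : ∃ g, Cos.mk H g = d := QuotientGroup.mk_surjective d

theorem Cos.mk_eq_iff {g g' : GL (Fin 2) E} : Cos.mk H g = Cos.mk H g' ↔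
    ∃ z : Eˣ, ∃ k ∈ H, g' = GeneralLinearGroup.scalar (Fin 2) z * (g * k) := by
  rw [Cos.mk, Cos.mk, QuotientGroup.eq, mem_sup_center]
  constructor
  · rintro ⟨z, k, hk, h⟩
    refine ⟨z, k, hk, ?_⟩
    rw [scalar_mul_comm, mul_assoc, ← scalar_mul_comm, ← h, mul_inv_cancel_left]
  · rintro ⟨z, k, hk, rfl⟩
    refine ⟨z, k, hk, ?_⟩
    rw [scalar_mul_comm, ← mul_assoc, ← mul_assoc, inv_mul_cancel, one_mul, scalar_mul_comm]

theorem Cos.mk_mul {g k : GL (Fin 2) E} (hk : k ∈ H) : Cos.mk H (g * k) = Cos.mk H g :=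
  (Cos.mk_eq_iff.mpr ⟨1, k, hk, by rw [map_one, one_mul]⟩).symm

theorem Cos.mk_scalar_mul (z : Eˣ) (g : GL (Fin 2) E) :
    Cos.mk H (GeneralLinearGroup.scalar (Fin 2) z * g) = Cos.mk H g :=
  (Cos.mk_eq_iff.mpr ⟨z, 1, H.one_mem, by rw [mul_one]⟩).symm

theorem Cos.smul_mk (g g' : GL (Fin 2) E) : g • Cos.mk H g' = Cos.mk H (g * g') := rfl

theorem Cos.scalar_smul (z : Eˣ) (d : Cos H) : GeneralLinearGroup.scalar (Fin 2) z • d = d := by
  obtain ⟨g, rfl⟩ := Cos.mk_surjective d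
  rw [Cos.smul_mk, Cos.mk_scalar_mul]

instance Cos.trivScalar : TrivScalar E (Cos H) := ⟨Cos.scalar_smul⟩

theorem Cos.mk_eq_one_iff {g : GL (Fin 2) E} : Cos.mk H g = Cos.mk H 1 ↔
    ∃ z : Eˣ, ∃ k ∈ H, g = GeneralLinearGroup.scalar (Fin 2) z * k := by
  rw [eq_comm, Cos.mk_eq_iff]
  simp only [one_mul]

/-- the stabiliser of the class of `g`. -/
theorem Cos.smul_mk_eq_iff {x g : GL (Fin 2) E} : x • Cos.mk H g = Cos.mk H g ↔
    ∃ z : Eˣ, ∃ k ∈ H, x = GeneralLinearGroup.scalar (Fin 2) z * (g * k * g⁻¹) := by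
  rw [Cos.smul_mk, eq_comm, Cos.mk_eq_iff]
  constructor
  · rintro ⟨z, k, hk, h⟩
    exact ⟨z, k, hk, by rw [← mul_assoc, ← h, mul_inv_cancel_right]⟩
  · rintro ⟨z, k, hk, h⟩
    exact ⟨z, k, hk, by rw [h, mul_assoc, mul_assoc, inv_mul_cancel, mul_one]⟩

/-- the change of level. -/
def Cos.map {H H' : Subgroup (GL (Fin 2) E)} (h : H ≤ H') (d : Cos H) : Cos H' :=
  Subgroup.quotientMapOfLE (sup_le_sup_right h _) d

@[simp] theorem Cos.map_mk {H H' : Subgroup (GL (Fin 2) E)} (h : H ≤ H') (g : GL (Fin 2) E) :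
    Cos.map h (Cos.mk H g) = Cos.mk H' g := rfl

theorem Cos.map_smul {H H' : Subgroup (GL (Fin 2) E)} (h : H ≤ H') (g : GL (Fin 2) E)
    (d : Cos H) : Cos.map h (g • d) = g • Cos.map h d := by
  obtain ⟨x, rfl⟩ := Cos.mk_surjective d
  rfl

end Cos

/-! ### Levels -/

section Lev

variable (F : Type*) [Field F] [NumberField F]

variable {F} in
/-- The map `GL₂(F) → GL₂(F_v)`. -/
abbrev gmap (v : HeightOneSpectrum (𝓞 F)) : GL (Fin 2) F →* GL (Fin 2) (v.adicCompletion F) :=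
  GeneralLinearGroup.map (algebraMap F (v.adicCompletion F))

variable {F} in
theorem gmap_apply (v : HeightOneSpectrum (𝓞 F)) (g : GL (Fin 2) F) (i j : Fin 2) :
    gmap v g i j = algebraMap F (v.adicCompletion F) (g i j) := rfl

/-- A compact open subgroup `U = ∏ U v` of `∏ GL₂(O_v)`. -/
structure Lev where
  /-- the local groups -/
  U : ∀ v : HeightOneSpectrum (𝓞 F), Subgroup (GL (Fin 2) (v.adicCompletion F))
  le : ∀ v, U v ≤ GLO (Valued.v : Valuation (v.adicCompletion F) ℤᵐ⁰)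
  isOpen : ∀ v, ∃ n : ℕ, ∀ g : GL (Fin 2) (v.adicCompletion F),
    Bd (Valued.v : Valuation (v.adicCompletion F) ℤᵐ⁰)
      ((g : Matrix (Fin 2) (Fin 2) (v.adicCompletion F)) - 1) (exp (-(n : ℤ))) → g ∈ U v
  ae : {v | U v ≠ GLO (Valued.v : Valuation (v.adicCompletion F) ℤᵐ⁰)}.Finite

variable {F}

/-- The local space `GL₂(F_v)/(U_v F_v^×)`. -/
abbrev Dv (U : Lev F) (v : HeightOneSpectrum (𝓞 F)) : Type _ := Cos (U.U v)

/-- `GL₂(F)` acts on the local spaces. -/
instance actF (v : HeightOneSpectrum (𝓞 F)) (H : Subgroup (GL (Fin 2) (v.adicCompletion F))) :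
    MulAction (GL (Fin 2) F) (Cos H) :=
  MulAction.compHom _ (gmap v)

theorem smulF_def {v : HeightOneSpectrum (𝓞 F)} {H : Subgroup (GL (Fin 2) (v.adicCompletion F))}
    (g : GL (Fin 2) F) (d : Cos H) : g • d = gmap v g • d := rfl

instance trivScalarF (v : HeightOneSpectrum (𝓞 F))
    (H : Subgroup (GL (Fin 2) (v.adicCompletion F))) : TrivScalar F (Cos H) := ⟨by
  intro a d
  rw [smulF_def]
  have : gmap v (GeneralLinearGroup.scalar (Fin 2) a) =
      GeneralLinearGroup.scalar (Fin 2) (Units.map (algebraMap F (v.adicCompletion F) :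
        F →* v.adicCompletion F) a) := by
    ext i j
    rw [gmap_apply, GeneralLinearGroup.coe_scalar, GeneralLinearGroup.coe_scalar]
    fin_cases i <;> fin_cases j <;> simp
  rw [this, Cos.scalar_smul]⟩

/-- the base points. -/
abbrev base (U : Lev F) (v : HeightOneSpectrum (𝓞 F)) : Dv U v := Cos.mk (U.U v) 1

/-- **The level** `D = G(𝔸_f)/U`, `G = PGL₂`: a restricted product. -/
abbrev D (U : Lev F) : Type _ := RProd (Dv U) (base U)

/-- A matrix over `F` is in `GL₂(O_v)` for almost all `v`. -/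
theorem finite_not_mem_GLO (g : GL (Fin 2) F) :
    {v : HeightOneSpectrum (𝓞 F) |
      gmap v g ∉ GLO (Valued.v : Valuation (v.adicCompletion F) ℤᵐ⁰)}.Finite := by
  have h : ∀ x : F, {v : HeightOneSpectrum (𝓞 F) |
      ¬ Valued.v (algebraMap F (v.adicCompletion F) x) ≤ 1}.Finite := by
    intro x
    refine (HeightOneSpectrum.Support.finite (𝓞 F) x).subset fun v hv => ?_
    simp only [Set.mem_ofPred_eq, not_le] at hv
    show 1 < v.valuation F x
    rwa [← HeightOneSpectrum.valuedAdicCompletion_eq_valuation']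
  refine ((Set.finite_iUnion fun p : Fin 2 × Fin 2 => h (g p.1 p.2)).union
    (Set.finite_iUnion fun p : Fin 2 × Fin 2 => h (g⁻¹ p.1 p.2))).subset fun v hv => ?_
  by_contra hcon
  simp only [Set.mem_union, Set.mem_iUnion, not_or, not_exists, Set.mem_ofPred_eq, not_not] at hcon
  refine hv (mem_GLO_iff.mpr ⟨fun i j => hcon.1 (i, j), fun i j => ?_⟩)
  rw [← map_inv]
  exact hcon.2 (i, j)

theorem finite_not_mem_U (U : Lev F) (g : GL (Fin 2) F) : {v | gmap v g ∉ U.U v}.Finite := by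
  refine ((finite_not_mem_GLO g).union U.ae).subset fun v hv => ?_
  by_contra hcon
  simp only [Set.mem_union, not_or, Set.mem_ofPred_eq, not_not] at hcon
  exact hv (by rw [hcon.2]; exact hcon.1)

instance baseFix (U : Lev F) : RProd.BaseFix (base U) (GL (Fin 2) F) where
  fin g := (finite_not_mem_U U g).subset fun v hv => by
    by_contra h
    simp only [Set.mem_ofPred_eq, not_not] at h
    refine hv ?_
    rw [smulF_def, Cos.smul_mk, mul_one]
    exact Cos.mk_eq_one_iff.mpr ⟨1, _, h, by rw [map_one, one_mul]⟩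

instance trivScalarD (U : Lev F) : TrivScalar F (D U) := ⟨fun a d => RProd.ext' fun v => by
  rw [RProd.smul_apply]
  exact TrivScalar.scalar_smul a (d v)⟩

/-- the change of level -/
def D.map {U U' : Lev F} (h : ∀ v, U.U v ≤ U'.U v) : D U → D U' :=
  RProd.map (fun v => Cos.map (h v)) (by simp)

@[simp] theorem D.map_apply {U U' : Lev F} (h : ∀ v, U.U v ≤ U'.U v) (d : D U)
    (v : HeightOneSpectrum (𝓞 F)) : D.map h d v = Cos.map (h v) (d v) := rfl

theorem D.map_smul {U U' : Lev F} (h : ∀ v, U.U v ≤ U'.U v) (g : GL (Fin 2) F) (d : D U) :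
    D.map h (g • d) = g • D.map h d := RProd.ext' fun v => Cos.map_smul (h v) _ _

end Lev

end Fermat.Agent.LT.Lvl

end
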