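import Fermat.Agent.LT.Level.Dense

/-!
# Change of level (helper34)

* `Kn w γ` principal congruence subgroups; `Lev.full`, `Lev.cong S n`, `Lev.inf`, `Lev.replace`;
* `Cos.card_fiber`, `D.map_surjective`, `D.fiberEquiv`, `D.finite_fiber`, `D.card_fiber`.
-/

set_option autoImplicit false

open Matrix NumberField IsDedekindDomain WithZero Fermat.Agent.LT.Loc
open scoped WithZero

noncomputable section

namespace Fermat.Agent.LT.Lvl

/-! ### Principal congruence subgroups -/

section Kn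

variable {E Γ : Type*} [Field E] [LinearOrderedCommGroupWithZero Γ] (w : Valuation E Γ)

/-- the principal congruence subgroup of level `γ`. -/
def Kn (γ : Γ) : Subgroup (GL (Fin 2) E) where
  carrier := {g | g ∈ GLO w ∧ Bd w (g.1 - 1) γ}
  mul_mem' := by
    rintro g h ⟨hg, hg'⟩ ⟨hh, hh'⟩
    refine ⟨mul_mem hg hh, ?_⟩
    have h1 : (g * h).1 - 1 = (g.1 - 1) * h.1 + (h.1 - 1) := by
      rw [Units.val_mul, sub_mul, one_mul]
      abel
    rw [h1]
    refine Bd.add ?_ hh'
    have := hg'.mul hh.1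
    rwa [mul_one] at this
  one_mem' := ⟨one_mem _, fun i j => by rw [Units.val_one, sub_self]; simp⟩
  inv_mem' := by
    rintro g ⟨hg, hg'⟩
    refine ⟨inv_mem hg, ?_⟩
    have h1 : (g⁻¹).1 - 1 = -((g⁻¹).1 * (g.1 - 1)) := by
      rw [mul_sub, mul_one, Units.inv_mul, neg_sub]
    rw [h1]
    refine Bd.neg ?_
    have := ((GLO w).inv_mem hg).1.mul hg'
    rwa [one_mul] at this

variable {w}

theorem mem_Kn {γ : Γ} {g : GL (Fin 2) E} : g ∈ Kn w γ ↔ g ∈ GLO w ∧ Bd w (g.1 - 1) γ := Iff.rfl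

theorem Kn_le (γ : Γ) : Kn w γ ≤ GLO w := fun _ h => h.1

theorem Kn_mono {γ δ : Γ} (h : γ ≤ δ) : Kn w γ ≤ Kn w δ := fun _ hg => ⟨hg.1, hg.2.mono h⟩

theorem Kn_one : Kn w 1 = GLO w :=
  le_antisymm (Kn_le _) fun _ hg => ⟨hg, hg.1.sub bd_one⟩

/-- conjugation by `GL₂(O)` -/
theorem conj_mem_Kn {γ : Γ} {g k : GL (Fin 2) E} (hk : k ∈ GLO w) (hg : g ∈ Kn w γ) :
    k * g * k⁻¹ ∈ Kn w γ := by
  refine ⟨mul_mem (mul_mem hk hg.1) (inv_mem hk), ?_⟩
  have h1 : (k * g * k⁻¹).1 - 1 = k.1 * (g.1 - 1) * (k⁻¹).1 := by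
    rw [Units.val_mul, Units.val_mul, mul_sub, sub_mul, mul_one, Units.mul_inv]
  rw [h1]
  have := (hk.1.mul hg.2).mul ((GLO w).inv_mem hk).1
  rwa [one_mul, mul_one] at this

theorem mem_Kn_of_bd {γ : Γ} (hγ : γ < 1) {g : GL (Fin 2) E} (h : Bd w (g.1 - 1) γ) :
    g ∈ Kn w γ := by
  have h1 : Bd w g.1 1 := by
    have := (h.mono hγ.le).add (bd_one (w := w))
    rwa [sub_add_cancel] at this
  have h2 : w (g.1.det - 1) ≤ γ := by
    have e : g.1.det - 1 = (g.1 - 1) 0 0 * g.1 1 1 + (g.1 - 1) 1 1 -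
        (g.1 - 1) 0 1 * g.1 1 0 := by
      rw [Matrix.det_fin_two]
      simp only [Matrix.sub_apply, Matrix.one_apply_eq, ne_eq, zero_ne_one, not_false_eq_true,
        Matrix.one_apply_ne]
      ring
    have h3 : ∀ i j k l, w ((g.1 - 1) i j * g.1 k l) ≤ γ := fun i j k l => by
      rw [map_mul]
      exact (mul_le_mul' (h _ _) (h1 _ _)).trans_eq (mul_one γ)
    rw [e]
    exact (w.map_sub _ _).trans (max_le ((w.map_add _ _).trans (max_le (h3 _ _ _ _) (h _ _)))
      (h3 _ _ _ _))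
  refine ⟨⟨h1, ?_⟩, h⟩
  rw [GeneralLinearGroup.val_det_apply]
  have h4 := Valuation.map_one_add_of_lt (v := w) (h2.trans_lt hγ)
  rwa [add_sub_cancel] at h4

end Kn

/-! ### Operations on levels -/

section Ops

variable {F : Type*} [Field F] [NumberField F]

/-- The valuation on the completion. -/
abbrev vF (v : HeightOneSpectrum (𝓞 F)) : Valuation (v.adicCompletion F) ℤᵐ⁰ := Valued.v

theorem exp_neg_lt_one {n : ℕ} (hn : n ≠ 0) : (exp (-(n : ℤ)) : ℤᵐ⁰) < 1 := by
  rw [← exp_zero, exp_lt_exp]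
  omega

theorem isOpen_Kn (v : HeightOneSpectrum (𝓞 F)) (n : ℕ) : ∃ m : ℕ,
    ∀ g : GL (Fin 2) (v.adicCompletion F), Bd (vF v) (g.1 - 1) (exp (-(m : ℤ))) →
      g ∈ Kn (vF v) (exp (-(n : ℤ))) :=
  ⟨n + 1, fun _ hg => Kn_mono (by rw [exp_le_exp]; push_cast; omega)
    (mem_Kn_of_bd (exp_neg_lt_one n.succ_ne_zero) hg)⟩

theorem isOpen_GLO (v : HeightOneSpectrum (𝓞 F)) : ∃ m : ℕ,
    ∀ g : GL (Fin 2) (v.adicCompletion F), Bd (vF v) (g.1 - 1) (exp (-(m : ℤ))) →
      g ∈ GLO (vF v) :=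
  ⟨1, fun _ hg => (mem_Kn_of_bd (exp_neg_lt_one one_ne_zero) hg).1⟩

variable (F) in
/-- the maximal level -/
def Lev.full : Lev F where
  U v := GLO (vF v)
  le _ := le_rfl
  isOpen := isOpen_GLO
  ae := by simp

@[simp] theorem Lev.full_U (v : HeightOneSpectrum (𝓞 F)) : (Lev.full F).U v = GLO (vF v) := rfl

open Classical in
/-- Replacing a level at finitely many places. -/
def Lev.replace (U : Lev F) (S : Finset (HeightOneSpectrum (𝓞 F)))
    (V : ∀ v : HeightOneSpectrum (𝓞 F), Subgroup (GL (Fin 2) (v.adicCompletion F)))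
    (hV : ∀ v ∈ S, V v ≤ GLO (vF v))
    (hV' : ∀ v ∈ S, ∃ n : ℕ, ∀ g : GL (Fin 2) (v.adicCompletion F),
      Bd (vF v) (g.1 - 1) (exp (-(n : ℤ))) → g ∈ V v) : Lev F where
  U v := if v ∈ S then V v else U.U v
  le v := by
    split_ifs with h
    · exact hV v h
    · exact U.le v
  isOpen v := by
    split_ifs with h
    · exact hV' v h
    · exact U.isOpen v
  ae := (S.finite_toSet.union U.ae).subset fun v hv => by
    by_contra h
    simp only [Set.mem_union, Finset.mem_coe, not_or, Set.mem_ofPred_eq, not_not] at h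
    exact hv (by rw [if_neg h.1, h.2])

theorem Lev.replace_mem {U : Lev F} {S : Finset (HeightOneSpectrum (𝓞 F))}
    {V : ∀ v : HeightOneSpectrum (𝓞 F), Subgroup (GL (Fin 2) (v.adicCompletion F))}
    {hV : ∀ v ∈ S, V v ≤ GLO (vF v)}
    {hV' : ∀ v ∈ S, ∃ n : ℕ, ∀ g : GL (Fin 2) (v.adicCompletion F),
      Bd (vF v) (g.1 - 1) (exp (-(n : ℤ))) → g ∈ V v} {v : HeightOneSpectrum (𝓞 F)}
    (h : v ∈ S) : (U.replace S V hV hV').U v = V v := if_pos h

theorem Lev.replace_notMem {U : Lev F} {S : Finset (HeightOneSpectrum (𝓞 F))}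
    {V : ∀ v : HeightOneSpectrum (𝓞 F), Subgroup (GL (Fin 2) (v.adicCompletion F))}
    {hV : ∀ v ∈ S, V v ≤ GLO (vF v)}
    {hV' : ∀ v ∈ S, ∃ n : ℕ, ∀ g : GL (Fin 2) (v.adicCompletion F),
      Bd (vF v) (g.1 - 1) (exp (-(n : ℤ))) → g ∈ V v} {v : HeightOneSpectrum (𝓞 F)}
    (h : v ∉ S) : (U.replace S V hV hV').U v = U.U v := if_neg h

/-- the principal level -/
def Lev.cong (S : Finset (HeightOneSpectrum (𝓞 F))) (n : ℕ) : Lev F :=
  (Lev.full F).replace S (fun v => Kn (vF v) (exp (-(n : ℤ)))) (fun _ _ => Kn_le _)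
    (fun v _ => isOpen_Kn v n)

theorem Lev.cong_mem {S : Finset (HeightOneSpectrum (𝓞 F))} {n : ℕ}
    {v : HeightOneSpectrum (𝓞 F)} (h : v ∈ S) :
    (Lev.cong S n).U v = Kn (vF v) (exp (-(n : ℤ))) := if_pos h

theorem Lev.cong_notMem {S : Finset (HeightOneSpectrum (𝓞 F))} {n : ℕ}
    {v : HeightOneSpectrum (𝓞 F)} (h : v ∉ S) : (Lev.cong S n).U v = GLO (vF v) := if_neg h

/-- the intersection of two levels -/
def Lev.inf (U U' : Lev F) : Lev F where
  U v := U.U v ⊓ U'.U v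
  le v := inf_le_left.trans (U.le v)
  isOpen v := by
    obtain ⟨n, hn⟩ := U.isOpen v
    obtain ⟨n', hn'⟩ := U'.isOpen v
    refine ⟨n + n', fun g hg => ⟨hn g (hg.mono ?_), hn' g (hg.mono ?_)⟩⟩ <;>
    · rw [exp_le_exp]; push_cast; omega
  ae := (U.ae.union U'.ae).subset fun v hv => by
    by_contra h
    simp only [Set.mem_union, not_or, Set.mem_ofPred_eq, not_not] at h
    exact hv (by rw [h.1, h.2, inf_idem])

@[simp] theorem Lev.inf_U (U U' : Lev F) (v : HeightOneSpectrum (𝓞 F)) :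
    (U.inf U').U v = U.U v ⊓ U'.U v := rfl

/-- the order on levels -/
instance : LE (Lev F) := ⟨fun U U' => ∀ v, U.U v ≤ U'.U v⟩

theorem Lev.le_def {U U' : Lev F} : U ≤ U' ↔ ∀ v, U.U v ≤ U'.U v := Iff.rfl

theorem Lev.le_full (U : Lev F) : U ≤ Lev.full F := U.le

theorem Lev.inf_le_left (U U' : Lev F) : U.inf U' ≤ U := fun _ => _root_.inf_le_left

theorem Lev.inf_le_right (U U' : Lev F) : U.inf U' ≤ U' := fun _ => _root_.inf_le_right

theorem Lev.le_trans' {U U' U'' : Lev F} (h : U ≤ U') (h' : U' ≤ U'') : U ≤ U'' :=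
  fun v => (h v).trans (h' v)

theorem Lev.notMem_bad {U : Lev F} {v : HeightOneSpectrum (𝓞 F)} :
    v ∉ U.bad ↔ U.U v = GLO (vF v) := by
  simp [Lev.bad]

theorem Lev.bad_anti {U U' : Lev F} (h : U ≤ U') : U'.bad ⊆ U.bad := by
  intro v hv
  by_contra h1
  refine (Finset.mem_coe.not.mp ?_) hv
  rw [Finset.mem_coe, Lev.notMem_bad]
  refine _root_.le_antisymm (U'.le v) ?_
  rw [← Lev.notMem_bad.mp h1]
  exact h v

/-- **the principal levels are cofinal.** -/
theorem Lev.exists_cong_le (U : Lev F) {S : Finset (HeightOneSpectrum (𝓞 F))} (hS : U.bad ⊆ S) :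
    ∃ n : ℕ, n ≠ 0 ∧ ∀ m ≥ n, Lev.cong S m ≤ U := by
  classical
  choose n hn using U.isOpen
  refine ⟨S.sup n + 1, Nat.succ_ne_zero _, fun m hm v => ?_⟩
  by_cases hv : v ∈ S
  · rw [Lev.cong_mem hv]
    intro g hg
    refine hn v g (hg.2.mono ?_)
    rw [exp_le_exp]
    have := Finset.le_sup (f := n) hv
    omega
  · rw [Lev.cong_notMem hv, Lev.notMem_bad.mp fun h => hv (hS h)]

end Ops

/-! ### Fibres of the change of level -/

section Fib

/-- the fibres of `G/A → G/B` have `[B : A]` elements. -/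
theorem card_quotient_fiber {G : Type*} [Group G] {A B : Subgroup G} (h : A ≤ B) (d : G ⧸ B) :
    Nat.card {x : G ⧸ A // Subgroup.quotientMapOfLE h x = d} = A.relIndex B := by
  have e : {x : G ⧸ A // Subgroup.quotientMapOfLE h x = d} ≃ (B ⧸ A.subgroupOf B) :=
    { toFun := fun x => (Subgroup.quotientEquivProdOfLE h x.1).2
      invFun := fun y => ⟨(Subgroup.quotientEquivProdOfLE h).symm (d, y), by
        have h1 := (Subgroup.quotientEquivProdOfLE h).apply_symm_apply (d, y)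
        exact congrArg Prod.fst h1⟩
      left_inv := fun x => by
        refine Subtype.ext ?_
        rw [Equiv.symm_apply_eq]
        refine Prod.ext ?_ rfl
        exact x.2.symm
      right_inv := fun y =>
        congrArg Prod.snd ((Subgroup.quotientEquivProdOfLE h).apply_symm_apply (d, y)) }
  rw [Nat.card_congr e]
  rfl

theorem Cos.card_fiber {E : Type*} [Field E] {H H' : Subgroup (GL (Fin 2) E)} (h : H ≤ H')
    (d : Cos H') : Nat.card {x : Cos H // Cos.map h x = d} =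
      (H ⊔ Subgroup.center _).relIndex (H' ⊔ Subgroup.center _) :=
  card_quotient_fiber (sup_le_sup_right h _) d

theorem Cos.map_surjective {E : Type*} [Field E] {H H' : Subgroup (GL (Fin 2) E)} (h : H ≤ H') :
    Function.Surjective (Cos.map h) := by
  intro d
  obtain ⟨g, rfl⟩ := Cos.mk_surjective d
  exact ⟨Cos.mk H g, rfl⟩

theorem Cos.map_injective_of_eq {E : Type*} [Field E] {H H' : Subgroup (GL (Fin 2) E)}
    (h : H ≤ H') (he : H = H') : Function.Injective (Cos.map h) := by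
  subst he
  intro x y hxy
  obtain ⟨g, rfl⟩ := Cos.mk_surjective x
  obtain ⟨g', rfl⟩ := Cos.mk_surjective y
  exact hxy

variable {F : Type*} [Field F] [NumberField F] {U U' : Lev F}

theorem finite_Cos_fiber (h : U ≤ U') (v : HeightOneSpectrum (𝓞 F)) (d : Dv U' v) :
    Finite {x : Dv U v // Cos.map (h v) x = d} := by
  obtain ⟨g, rfl⟩ := Cos.mk_surjective d
  have hfin := (finite_PSet U v 0).image (fun x : Dv U v => g • x)
  refine (Set.Finite.subset hfin fun x hx => ?_ :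
    {x : Dv U v | Cos.map (h v) x = Cos.mk (U'.U v) g}.Finite)
  obtain ⟨g', rfl⟩ := Cos.mk_surjective x
  obtain ⟨z, k, hk, hz⟩ := Cos.mk_eq_iff.mp (Eq.symm hx :
    Cos.mk (U'.U v) g = Cos.mk (U'.U v) g')
  refine ⟨Cos.mk (U.U v) k, ⟨k, rfl, (U'.le v hk).1, ?_⟩, ?_⟩
  · rw [(U'.le v hk).2]
    simp
  · show Cos.mk (U.U v) (g * k) = Cos.mk (U.U v) g'
    rw [hz, Cos.mk_scalar_mul]

/-- The local index of a change of level. -/
def locIndex (U U' : Lev F) (v : HeightOneSpectrum (𝓞 F)) : ℕ :=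
  (U.U v ⊔ Subgroup.center _).relIndex (U'.U v ⊔ Subgroup.center _)

theorem locIndex_ne_zero (h : U ≤ U') (v : HeightOneSpectrum (𝓞 F)) : locIndex U U' v ≠ 0 := by
  have h1 := Cos.card_fiber (h v) (base U' v)
  rw [locIndex, ← h1]
  have := finite_Cos_fiber h v (base U' v)
  have : Nonempty {x : Dv U v // Cos.map (h v) x = base U' v} := ⟨⟨base U v, rfl⟩⟩
  exact Nat.card_pos.ne'

/-- The total index. -/
def levIndex (U U' : Lev F) : ℕ := ∏ v ∈ U.bad, locIndex U U' v

theorem levIndex_ne_zero (h : U ≤ U') : levIndex U U' ≠ 0 :=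
  Finset.prod_ne_zero_iff.mpr fun v _ => locIndex_ne_zero h v

theorem eq_of_notMem_bad_of_le (h : U ≤ U') {v : HeightOneSpectrum (𝓞 F)} (hv : v ∉ U.bad) :
    U.U v = U'.U v := by
  rw [Lev.notMem_bad.mp hv, Lev.notMem_bad.mp fun h1 => hv (Lev.bad_anti h h1)]

open Classical in
/-- The fibres of the change of level are finite products of local fibres. -/
def D.fiberEquiv (h : U ≤ U') (d : D U') :
    {x : D U // D.map h x = d} ≃ ∀ v : U.bad, {x : Dv U v.1 // Cos.map (h v.1) x = d v.1} where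
  toFun x v := ⟨x.1 v.1, congrArg (fun y : D U' => y v.1) x.2⟩
  invFun y := ⟨⟨fun v => if hv : v ∈ U.bad then (y ⟨v, hv⟩).1 else
      if d v = base U' v then base U v else (Cos.map_surjective (h v) (d v)).choose,
    (U.bad.finite_toSet.union d.fin).subset fun v hv => by
      by_contra h1
      simp only [Set.mem_union, Finset.mem_coe, Set.mem_ofPred_eq, not_or, not_not] at h1
      refine hv ?_
      rw [dif_neg h1.1, if_pos h1.2]⟩, by
    refine RProd.ext' fun v => ?_
    rw [D.map_apply]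
    show Cos.map (h v) (if hv : v ∈ U.bad then (y ⟨v, hv⟩).1 else
      if d v = base U' v then base U v else (Cos.map_surjective (h v) (d v)).choose) = d v
    split_ifs with h1 h2
    · exact (y ⟨v, h1⟩).2
    · exact h2.symm
    · exact (Cos.map_surjective (h v) (d v)).choose_spec⟩
  left_inv x := by
    refine Subtype.ext (RProd.ext' fun v => ?_)
    show (if hv : v ∈ U.bad then x.1 v else
      if d v = base U' v then base U v else (Cos.map_surjective (h v) (d v)).choose) = x.1 v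
    have hx : Cos.map (h v) (x.1 v) = d v := congrArg (fun y : D U' => y v) x.2
    split_ifs with h1 h2
    · rfl
    · refine Cos.map_injective_of_eq (h v) (eq_of_notMem_bad_of_le h h1) ?_
      rw [hx, h2]
      rfl
    · refine Cos.map_injective_of_eq (h v) (eq_of_notMem_bad_of_le h h1) ?_
      rw [hx]
      exact (Cos.map_surjective (h v) (d v)).choose_spec
  right_inv y := by
    funext v
    refine Subtype.ext ?_
    exact dif_pos v.2

theorem D.finite_fiber (h : U ≤ U') (d : D U') : Finite {x : D U // D.map h x = d} := by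
  have := fun v : U.bad => finite_Cos_fiber h v.1 (d v.1)
  exact Finite.of_equiv _ (D.fiberEquiv h d).symm

theorem D.card_fiber (h : U ≤ U') (d : D U') :
    Nat.card {x : D U // D.map h x = d} = levIndex U U' := by
  rw [Nat.card_congr (D.fiberEquiv h d), Nat.card_pi, levIndex,
    ← Finset.prod_coe_sort U.bad (fun v => locIndex U U' v)]
  exact Finset.prod_congr rfl fun v _ => Cos.card_fiber (h v.1) (d v.1)

theorem D.map_surjective (h : U ≤ U') : Function.Surjective (D.map h) := by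
  intro d
  have : Nat.card {x : D U // D.map h x = d} ≠ 0 := by
    rw [D.card_fiber]
    exact levIndex_ne_zero h
  obtain ⟨⟨x, hx⟩⟩ := (Nat.card_ne_zero.mp this).1
  exact ⟨x, hx⟩

end Fib

end Fermat.Agent.LT.Lvl

end
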