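import Fermat.Agent.LT.Level.Pull
import Fermat.Agent.LT.IwaDatum
import Fermat.Agent.LT.LevDownIw

/-!
# The standard levels (helper34)

`Lev.std S T M`: principal congruence subgroup of level `M v` at `v ∈ S`, Iwahori at
`v ∈ T \ S`, maximal elsewhere.
-/

set_option autoImplicit false

open Matrix NumberField IsDedekindDomain WithZero Fermat.Agent.LT.Iwa Fermat.Agent.LT.Ext
open scoped WithZero Pointwise

noncomputable section

namespace Fermat.Agent.LT.Lvl

variable {F : Type*} [Field F] [NumberField F]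

open Classical in
/-- **The standard levels.** -/
def Lev.std (S T : Finset (HeightOneSpectrum (𝓞 F))) (M : HeightOneSpectrum (𝓞 F) → ℕ) :
    Lev F where
  U v := if v ∈ S then Kn (vF v) (exp (-(M v : ℤ))) else
    if v ∈ T then Iw (vF v) else GLO (vF v)
  le v := by
    split_ifs
    · exact Kn_le _
    · exact Iw_le_GLO
    · exact le_rfl
  isOpen v := by
    split_ifs
    · exact isOpen_Kn v _
    · exact ⟨1, fun g hg => mem_Iw_of_bd (by exact_mod_cast hg)⟩
    · exact isOpen_GLO v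
  ae := (S.finite_toSet.union T.finite_toSet).subset fun v hv => by
    by_contra h
    simp only [Set.mem_union, Finset.mem_coe, not_or] at h
    exact hv (by rw [if_neg h.1, if_neg h.2])

section Basic

variable {S S' T T' : Finset (HeightOneSpectrum (𝓞 F))} {M M' : HeightOneSpectrum (𝓞 F) → ℕ}
  {v : HeightOneSpectrum (𝓞 F)}

theorem Lev.std_S (h : v ∈ S) : (Lev.std S T M).U v = Kn (vF v) (exp (-(M v : ℤ))) := if_pos h

theorem Lev.std_T (h : v ∉ S) (h' : v ∈ T) : (Lev.std S T M).U v = Iw (vF v) :=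
  (if_neg h).trans (if_pos h')

theorem Lev.std_off (h : v ∉ S) (h' : v ∉ T) : (Lev.std S T M).U v = GLO (vF v) :=
  (if_neg h).trans (if_neg h')

theorem Lev.std_bad [DecidableEq (HeightOneSpectrum (𝓞 F))] :
    (Lev.std S T M).bad ⊆ S ∪ T := by
  intro v hv
  by_contra h
  rw [Finset.mem_union, not_or] at h
  exact Lev.notMem_bad.mpr (Lev.std_off h.1 h.2) hv

theorem Iw_le_of_Kn {n : ℕ} (hn : n ≠ 0) : Kn (vF v) (exp (-(n : ℤ))) ≤ Iw (vF v) := by
  intro g hg
  refine mem_Iw_of_bd (hg.2.mono ?_)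
  rw [exp_le_exp]
  omega

/-- **Monotonicity** -/
theorem Lev.std_anti (hM : ∀ v ∈ S, M v ≤ M' v) (hS : S ⊆ S') (hT : ∀ v ∈ T, v ∈ S' ∨ v ∈ T')
    (h0 : ∀ v ∈ S', v ∈ T → v ∉ S → M' v ≠ 0) : Lev.std S' T' M' ≤ Lev.std S T M := by
  intro v
  by_cases h' : v ∈ S'
  · rw [Lev.std_S h']
    by_cases h : v ∈ S
    · rw [Lev.std_S h]
      refine Kn_mono ?_
      rw [exp_le_exp]
      have := hM v h
      omega
    · by_cases ht : v ∈ T
      · rw [Lev.std_T h ht]
        exact Iw_le_of_Kn (h0 v h' ht h)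
      · rw [Lev.std_off h ht]
        exact Kn_le _
  · have h : v ∉ S := fun h => h' (hS h)
    by_cases ht : v ∈ T
    · rw [Lev.std_T h ht, Lev.std_T h' ((hT v ht).resolve_left h')]
    · rw [Lev.std_off h ht]
      exact Lev.le _ v

/-- Change of the exponents only -/
theorem Lev.std_anti_exp (hM : ∀ v ∈ S, M v ≤ M' v) : Lev.std S T M' ≤ Lev.std S T M :=
  Lev.std_anti hM subset_rfl (fun _ h => Or.inr h) fun _ h _ h' => absurd h h'

/-- Forgetting the Iwahori places -/
theorem Lev.std_le_of_subset (hT : T ⊆ T') : Lev.std S T' M ≤ Lev.std S T M :=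
  Lev.std_anti (fun _ _ => le_rfl) subset_rfl (fun _ h => Or.inr (hT h))
    fun _ h _ h' => absurd h h'

theorem Lev.ext' {U U' : Lev F} (h : ∀ v, U.U v = U'.U v) : U = U' := by
  obtain ⟨V, _, _, _⟩ := U
  obtain ⟨V', _, _, _⟩ := U'
  obtain rfl : V = V' := funext h
  rfl

theorem Lev.std_empty : Lev.std ∅ ∅ M = Lev.full F :=
  Lev.ext' fun v => by rw [Lev.std_off (by simp) (by simp), Lev.full_U]

/-- **The standard levels are cofinal.** -/
theorem Lev.exists_std_le (U : Lev F) (hU : ∀ v ∈ U.bad, v ∈ S ∨ v ∈ T ∧ Iw (vF v) ≤ U.U v) :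
    ∃ M₀ : HeightOneSpectrum (𝓞 F) → ℕ, (∀ v, M₀ v ≠ 0) ∧
      ∀ M : HeightOneSpectrum (𝓞 F) → ℕ, (∀ v ∈ S, M₀ v ≤ M v) → Lev.std S T M ≤ U := by
  choose n hn using U.isOpen
  refine ⟨fun v => n v + 1, fun v => Nat.succ_ne_zero _, fun M hM v => ?_⟩
  by_cases hS : v ∈ S
  · rw [Lev.std_S hS]
    intro g hg
    refine hn v g (hg.2.mono ?_)
    rw [exp_le_exp]
    have : n v + 1 ≤ M v := hM v hS
    omega
  · by_cases hb : v ∈ U.bad
    · obtain ⟨hT, hI⟩ := (hU v hb).resolve_left hS
      rw [Lev.std_T hS hT]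
      exact hI
    · rw [Lev.notMem_bad.mp hb]
      exact Lev.le _ v

end Basic

/-! ### Galois stable standard levels -/

section Gal

variable {L : Type*} [Field L] [NumberField L] {G : Type*} [Group G] [MulSemiringAction G L]
  {S T : Finset (HeightOneSpectrum (𝓞 L))} {M : HeightOneSpectrum (𝓞 L) → ℕ}

theorem gstable_std (hS : ∀ (g : G) w, w ∈ S → g • w ∈ S) (hT : ∀ (g : G) w, w ∈ T → g • w ∈ T)
    (hM : ∀ (g : G) w, w ∈ S → M (g • w) = M w) : GStable G (Lev.std S T M).U := by
  intro g w w' h x hx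
  rw [Subgroup.mem_comap]
  have hiff : ∀ {R : Finset (HeightOneSpectrum (𝓞 L))}, (∀ (g : G) w, w ∈ R → g • w ∈ R) →
      (w ∈ R ↔ w' ∈ R) := by
    intro R hR
    refine ⟨fun hw => h ▸ hR g w hw, fun hw => ?_⟩
    have := hR g⁻¹ w' hw
    rwa [← h, inv_smul_smul] at this
  by_cases hw : w ∈ S
  · have hw' := (hiff hS).mp hw
    rw [Lev.std_S hw] at hx
    have hMw : M w' = M w := by rw [← h, hM g w hw]
    rw [Lev.std_S hw', hMw]
    exact (mem_Kn_glExt_iff h (exp (-(M w : ℤ))) x).mpr hx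
  · have hw' : w' ∉ S := fun h' => hw ((hiff hS).mpr h')
    by_cases ht : w ∈ T
    · rw [Lev.std_T hw ht] at hx
      rw [Lev.std_T hw' ((hiff hT).mp ht)]
      exact (mem_Iw_glExt_iff h x).mpr hx
    · rw [Lev.std_off hw ht] at hx
      rw [Lev.std_off hw' fun h' => ht ((hiff hT).mpr h')]
      exact (mem_GLO_glExt_iff h x).mpr hx

end Gal

/-! ### The pair of standard levels -/

section Pair

open Fermat.Agent.CFT.SUnits

variable {K : Type*} [Field K] [NumberField K] {L : Type*} [Field L] [NumberField L] [Algebra K L]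
  {G : Type*} [Group G] [MulSemiringAction G L] [IsGaloisGroup G K L]

theorem under_smul_gal (g : G) (w : HeightOneSpectrum (𝓞 L)) : under K (g • w) = under K w :=
  (under_eq_iff K (g • w) (under K w)).mpr
    (g • (⟨w, liesOver_under K w⟩ : Above L (under K w))).2

/-- The ramification index is constant on the orbits. -/
theorem ramE_smul (v : HeightOneSpectrum (𝓞 K)) (g : G) (w : HeightOneSpectrum (𝓞 L))
    [w.asIdeal.LiesOver v.asIdeal] [(g • w).asIdeal.LiesOver v.asIdeal] :
    ramE v (g • w) = ramE v w := by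
  obtain ⟨π, hπ⟩ := v.valuation_exists_uniformizer K
  have h1 := (compat_liesOver (K := K) (L := L) v w).val π
  have h2 := (compat_liesOver (K := K) (L := L) v (g • w)).val π
  have h3 := valuation_smul (L := L) g w (algebraMap K L π)
  have := IsGaloisGroup.commutes (G := G) (A := K) (B := L)
  rw [smul_algebraMap g π, h1, h2, hπ, ← WithZero.exp_nsmul, ← WithZero.exp_nsmul,
    WithZero.exp_inj] at h3
  simp only [Int.reduceNeg, smul_neg, nsmul_eq_mul, mul_one, neg_inj, Nat.cast_inj] at h3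
  exact h3

/-- **The standard level of `L` above a standard level of `K`.** -/
def Lev.stdUp (L : Type*) [Field L] [NumberField L] [Algebra K L]
    (S T : Finset (HeightOneSpectrum (𝓞 K))) (M : HeightOneSpectrum (𝓞 K) → ℕ) : Lev L :=
  Lev.std (aboveS L S) (aboveS L T) fun w => ramE (under K w) w * M (under K w)

variable {S T : Finset (HeightOneSpectrum (𝓞 K))} {M : HeightOneSpectrum (𝓞 K) → ℕ}

theorem Lev.stdUp_S {w : HeightOneSpectrum (𝓞 L)} (h : under K w ∈ S) :
    (Lev.stdUp L S T M).U w =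
      Kn (vF w) (exp (-((ramE (under K w) w * M (under K w) : ℕ) : ℤ))) :=
  Lev.std_S (by simpa using h)

theorem Lev.stdUp_T {w : HeightOneSpectrum (𝓞 L)} (h : under K w ∉ S) (h' : under K w ∈ T) :
    (Lev.stdUp L S T M).U w = Iw (vF w) :=
  Lev.std_T (by simpa using h) (by simpa using h')

theorem Lev.stdUp_off {w : HeightOneSpectrum (𝓞 L)} (h : under K w ∉ S)
    (h' : under K w ∉ T) : (Lev.stdUp L S T M).U w = GLO (vF w) :=
  Lev.std_off (by simpa using h) (by simpa using h')

theorem gstable_stdUp : GStable G (Lev.stdUp L S T M).U := by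
  refine gstable_std (fun g w hw => ?_) (fun g w hw => ?_) fun g w _ => ?_
  · rw [mem_aboveS] at hw ⊢
    rwa [under_smul_gal]
  · rw [mem_aboveS] at hw ⊢
    rwa [under_smul_gal]
  · have h : under K (g • w) = under K w := under_smul_gal g w
    have h' : (g • w).asIdeal.LiesOver (under K w).asIdeal := (under_eq_iff K _ _).mp h
    rw [h, ramE_smul]

/-- **`levDown` of the standard level.** -/
theorem levDown_stdUp [Finite G] (hG : GStable G (Lev.stdUp L S T M).U) :
    levDown K (Lev.stdUp L S T M) = Lev.std S T M := by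
  refine Lev.ext' fun v => ?_
  obtain ⟨w⟩ := nonempty_above (L := L) (v := v)
  have hw : under K w.1 = v := (under_eq_iff K w.1 v).mpr w.2
  by_cases hS : v ∈ S
  · rw [Lev.std_S hS]
    refine levDown_eq_Kn hG (w := w) ?_
    rw [Lev.stdUp_S (by rwa [hw]), hw]
  · by_cases hT : v ∈ T
    · rw [Lev.std_T hS hT]
      exact levDown_eq_Iw hG (w := w) (Lev.stdUp_T (by rwa [hw]) (by rwa [hw]))
    · rw [Lev.std_off hS hT]
      exact levDown_eq_GLO hG (w := w) (Lev.stdUp_off (by rwa [hw]) (by rwa [hw]))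

end Pair

end Fermat.Agent.LT.Lvl

end
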