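import Fermat.Agent.LT.Level.Defs
import Fermat.Agent.LT.SApprox
import Fermat.Agent.CFT.SClass

/-!
# `D U` is a level (helper34)
-/

set_option autoImplicit false

open Matrix NumberField IsDedekindDomain WithZero Fermat.Agent.LT.Loc
open scoped WithZero

noncomputable section

namespace Fermat.Agent.LT.Lvl

/-! ### General valuation facts -/

section Gen

/-- every non-zero element of `ℤᵐ⁰` is at most some `exp n`. -/
theorem exists_le_exp (γ : ℤᵐ⁰) : ∃ n : ℕ, γ ≤ exp (n : ℤ) := by
  rcases eq_or_ne γ 0 with rfl | h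
  · exact ⟨0, zero_le⟩
  · refine ⟨(log γ).toNat, ?_⟩
    rw [← exp_log h, exp_le_exp, log_exp]
    exact Int.self_le_toNat _

variable {E Γ : Type*} [Field E] [LinearOrderedCommGroupWithZero Γ] {w : Valuation E Γ}

theorem scalar_mul_apply (z : Eˣ) (u : GL (Fin 2) E) (i j : Fin 2) :
    (GeneralLinearGroup.scalar (Fin 2) z * u) i j = z * u i j := by
  rw [GeneralLinearGroup.coe_mul, GeneralLinearGroup.coe_scalar, Matrix.scalar_apply,
    Matrix.diagonal_mul]

theorem det_val_ne_zero (u : GL (Fin 2) E) : u.1.det ≠ 0 := by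
  rw [← GeneralLinearGroup.val_det_apply]
  exact Units.ne_zero _

/-- the entries of `Ad g` do not change under scalars. -/
theorem quad_scalar_mul (z : Eˣ) (u : GL (Fin 2) E) (i j k l : Fin 2) :
    (GeneralLinearGroup.scalar (Fin 2) z * u) i j * (GeneralLinearGroup.scalar (Fin 2) z * u) k l /
      (GeneralLinearGroup.scalar (Fin 2) z * u).1.det = u i j * u k l / u.1.det := by
  have hzd : (GeneralLinearGroup.scalar (Fin 2) z * u).1.det = z * z * u.1.det := by
    rw [Matrix.det_fin_two, Matrix.det_fin_two, scalar_mul_apply, scalar_mul_apply,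
      scalar_mul_apply, scalar_mul_apply]
    ring
  rw [hzd, scalar_mul_apply, scalar_mul_apply]
  have := z.ne_zero
  have h3 := det_val_ne_zero u
  field_simp

/-- entries of `g` divided by the determinant. -/
theorem val_quad_le {A : Matrix (Fin 2) (Fin 2) E} {γ : Γ} (h : Bd w A γ) (i j k l : Fin 2) :
    w (A i j * A k l / A.det) ≤ γ * γ * (w A.det)⁻¹ := by
  rw [map_div₀, map_mul, div_eq_mul_inv]
  exact mul_le_mul' (mul_le_mul' (h _ _) (h _ _)) le_rfl

end Gen

variable {F : Type*} [Field F] [NumberField F]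

theorem isIntegral_of_valuation_le {x : F} (h : ∀ v : HeightOneSpectrum (𝓞 F),
    v.valuation F x ≤ 1) : IsIntegral ℤ x := by
  obtain ⟨y, rfl⟩ := HeightOneSpectrum.mem_integers_of_valuation_le_one F _ h
  exact y.isIntegral_coe

theorem valuation_le_of_isIntegral {x : F} (h : IsIntegral ℤ x) (v : HeightOneSpectrum (𝓞 F)) :
    v.valuation F x ≤ 1 := v.valuation_le_one (⟨x, h⟩ : 𝓞 F)

theorem valuation_natCast_le (v : HeightOneSpectrum (𝓞 F)) (m : ℕ) :
    v.valuation F (m : F) ≤ 1 := by
  simpa using v.valuation_le_one (K := F) (m : 𝓞 F)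

theorem valuation_absNorm_le (v : HeightOneSpectrum (𝓞 F)) :
    v.valuation F ((Ideal.absNorm v.asIdeal : ℕ) : F) ≤ exp (-1 : ℤ) := by
  have h1 : ((Ideal.absNorm v.asIdeal : ℕ) : 𝓞 F) ∈ v.asIdeal := Ideal.absNorm_mem _
  have h2 : v.valuation F (algebraMap (𝓞 F) F ((Ideal.absNorm v.asIdeal : ℕ) : 𝓞 F)) < 1 := by
    rw [HeightOneSpectrum.valuation_lt_one_iff_mem]
    exact h1
  rw [map_natCast] at h2
  rcases eq_or_ne (v.valuation F ((Ideal.absNorm v.asIdeal : ℕ) : F)) 0 with h0 | h0
  · rw [h0]; exact zero_le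
  · rw [← exp_log h0] at h2 ⊢
    rw [← exp_zero, exp_lt_exp] at h2
    rw [exp_le_exp]
    omega

/-- a natural number which is very divisible at finitely many places. -/
theorem exists_nat_valuation_le (S : Finset (HeightOneSpectrum (𝓞 F)))
    (n : HeightOneSpectrum (𝓞 F) → ℕ) :
    ∃ m : ℕ, m ≠ 0 ∧ ∀ v ∈ S, v.valuation F (m : F) ≤ exp (-(n v : ℤ)) := by
  classical
  refine ⟨∏ v ∈ S, Ideal.absNorm v.asIdeal ^ n v, ?_, fun v hv => ?_⟩
  · refine Finset.prod_ne_zero_iff.mpr fun v _ => pow_ne_zero _ ?_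
    rw [ne_eq, Ideal.absNorm_eq_zero_iff]
    exact v.ne_bot
  · rw [← Finset.mul_prod_erase S _ hv, Nat.cast_mul, map_mul, Nat.cast_pow, map_pow]
    calc _ ≤ exp (-1 : ℤ) ^ n v * 1 :=
          mul_le_mul' (pow_le_pow_left' (valuation_absNorm_le v) _) (valuation_natCast_le v _)
      _ = _ := by rw [mul_one, ← WithZero.exp_nsmul]; simp

/-! ### Local finiteness -/

section Local

variable (U : Lev F) (v : HeightOneSpectrum (𝓞 F))

/-- the valuation of `F_v` -/
local notation "vv" => (Valued.v : Valuation (v.adicCompletion F) ℤᵐ⁰)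

theorem mk_eq_of_close {g : GL (Fin 2) (v.adicCompletion F)} {r n : ℕ}
    (hn : ∀ g : GL (Fin 2) (v.adicCompletion F),
      Bd vv ((g : Matrix (Fin 2) (Fin 2) (v.adicCompletion F)) - 1) (exp (-(n : ℤ))) → g ∈ U.U v)
    (hg : Bd vv (g : Matrix (Fin 2) (Fin 2) (v.adicCompletion F)) 1)
    (hd : exp (-(r : ℤ)) ≤ vv ((g.det : (v.adicCompletion F)ˣ) : v.adicCompletion F))
    {g' : GL (Fin 2) (v.adicCompletion F)}
    (h : Bd vv ((g' : Matrix (Fin 2) (Fin 2) (v.adicCompletion F)) - g)
      (exp (-((r + n : ℕ) : ℤ)))) :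
    Cos.mk (U.U v) g' = Cos.mk (U.U v) g := by
  have h1 : g⁻¹ * g' ∈ U.U v := by
    refine hn _ ?_
    have h2 : ((g⁻¹ * g' : GL (Fin 2) (v.adicCompletion F)) :
        Matrix (Fin 2) (Fin 2) (v.adicCompletion F)) - 1 =
        ((g⁻¹ : GL (Fin 2) (v.adicCompletion F)) : Matrix (Fin 2) (Fin 2) (v.adicCompletion F)) *
          ((g' : Matrix (Fin 2) (Fin 2) (v.adicCompletion F)) - g) := by
      rw [mul_sub, GeneralLinearGroup.coe_mul, ← GeneralLinearGroup.coe_mul g⁻¹ g,
        inv_mul_cancel, GeneralLinearGroup.coe_one]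
    rw [h2]
    refine (hg.inv.mul h).mono ?_
    rw [mul_one]
    calc _ ≤ exp (r : ℤ) * exp (-((r + n : ℕ) : ℤ)) := by
          refine mul_le_mul' ?_ le_rfl
          rw [show exp (r : ℤ) = (exp (-(r : ℤ)))⁻¹ by rw [← WithZero.exp_neg, neg_neg]]
          exact inv_anti₀ (exp_pos) hd
      _ = _ := by rw [← exp_add]; congr 1; push_cast; ring
  rw [← Cos.mk_mul (H := U.U v) (g := g) h1, mul_inv_cancel_left]

/-- the classes of the integral matrices with determinant of valuation at least `exp (-r)`. -/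
def PSet (r : ℕ) : Set (Dv U v) :=
  {d | ∃ g : GL (Fin 2) (v.adicCompletion F), Cos.mk (U.U v) g = d ∧
    Bd vv (g : Matrix (Fin 2) (Fin 2) (v.adicCompletion F)) 1 ∧
    exp (-(r : ℤ)) ≤ vv ((g.det : (v.adicCompletion F)ˣ) : v.adicCompletion F)}

theorem exists_int_close (x : v.adicCompletion F) (hx : vv x ≤ 1) (n : ℕ) :
    ∃ a : 𝓞 F, vv (algebraMap F (v.adicCompletion F) (a : F) - x) ≤ exp (-(n : ℤ)) := by
  obtain ⟨k, hk⟩ := exists_ι_sub_lt v x (γ := exp (-(n : ℤ))) exp_ne_zero
  have hk1 : v.valuation F k ≤ 1 := by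
    rw [← v_ι, show ι v k = x + (ι v k - x) by ring]
    refine (Valued.v.map_add _ _).trans (max_le hx (hk.le.trans ?_))
    rw [← exp_zero, exp_le_exp]
    omega
  obtain ⟨a, ha⟩ := v.exists_valuation_sub_lt_of_integer hk1
    (Units.mk0 (exp (-(n : ℤ))) exp_ne_zero)
  refine ⟨a, ?_⟩
  rw [show ι v (a : F) - x = ι v (algebraMap (𝓞 F) F a - k) + (ι v k - x) by
    rw [map_sub]; ring]
  refine (Valued.v.map_add _ _).trans (max_le ?_ hk.le)
  rw [v_ι]
  exact le_of_lt ha

theorem finite_PSet (r : ℕ) : (PSet U v r).Finite := by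
  classical
  obtain ⟨n, hn⟩ := U.isOpen v
  set N := r + n with hN
  have : Finite (𝓞 F ⧸ v.asIdeal ^ N) :=
    Ideal.finiteQuotientOfFreeOfNeBot _ (pow_ne_zero _ v.ne_bot)
  choose! g hg1 hg2 hg3 using fun (d : Dv U v) (hd : d ∈ PSet U v r) => hd
  choose! a ha using fun (x : v.adicCompletion F) (hx : vv x ≤ 1) => exists_int_close v x hx N
  let f : Dv U v → Fin 2 → Fin 2 → 𝓞 F ⧸ v.asIdeal ^ N := fun d i j =>
    Ideal.Quotient.mk _ (a (g d i j))
  refine Set.Finite.of_finite_image (f := f) (Set.toFinite _) fun d hd d' hd' h => ?_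
  rw [← hg1 d hd, ← hg1 d' hd']
  refine (mk_eq_of_close U v hn (hg2 d hd) (hg3 d hd) (g' := g d') ?_).symm
  intro i j
  have h1 : a (g d' i j) - a (g d i j) ∈ v.asIdeal ^ N :=
    (Ideal.Quotient.eq.mp (congrFun (congrFun h i) j).symm)
  rw [← HeightOneSpectrum.intValuation_le_pow_iff_mem, ← HeightOneSpectrum.valuation_of_algebraMap
    (K := F), ← v_ι] at h1
  have h2 := ha (g d i j) (hg2 d hd i j)
  have h3 := ha (g d' i j) (hg2 d' hd' i j)
  rw [Matrix.sub_apply]
  have h4 : g d' i j - g d i j = (algebraMap F (v.adicCompletion F) (a (g d i j) : F) - g d i j) -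
      (algebraMap F (v.adicCompletion F) (a (g d' i j) : F) - g d' i j) +
      (algebraMap F (v.adicCompletion F) (a (g d' i j) : F) -
        algebraMap F (v.adicCompletion F) (a (g d i j) : F)) := by ring
  rw [h4]
  refine (Valuation.map_add _ _ _).trans (max_le ((Valuation.map_sub _ _ _).trans
    (max_le h2 h3)) ?_)
  rw [← map_sub, ← map_sub]
  exact h1

end Local

/-! ### Global adjustment -/

section Global

open CFT.SUnits

/-- An idele can be made a unit outside a finite set `S₁` with `Cl_{S₁} = 1`, with bounded orders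
at the places in `S₁`, by multiplication with an element of `F^×`. -/
theorem exists_adjust_mul {S₁ : Finset (HeightOneSpectrum (𝓞 F))}
    (hS₁ : ClTrivial (S₁ : Set (HeightOneSpectrum (𝓞 F))))
    (a : ∀ v : HeightOneSpectrum (𝓞 F), (v.adicCompletion F)ˣ)
    (ha : {v | Valued.v (a v : v.adicCompletion F) ≠ 1}.Finite) :
    ∃ α : Fˣ, (∀ v ∉ S₁, Valued.v (algebraMap F (v.adicCompletion F) α * a v) = 1) ∧
      ∀ v ∈ S₁, Valued.v (algebraMap F (v.adicCompletion F) α * a v) ≤ 1 ∧
        exp (-(classNumber F : ℤ)) ≤ Valued.v (algebraMap F (v.adicCompletion F) α * a v) := by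
  classical
  have hav : ∀ v, Valued.v (a v : v.adicCompletion F) =
      exp (log (Valued.v (a v : v.adicCompletion F))) := fun v => by
    rw [exp_log]
    exact (Valuation.ne_zero_iff _).mpr (a v).ne_zero
  obtain ⟨α₀, hα₀⟩ := hS₁.exists_ord (Finsupp.ofSupportFinite
    (fun v => log (Valued.v (a v : v.adicCompletion F))) (ha.subset fun v hv h => hv (by
      show log (Valued.v (a v : v.adicCompletion F)) = 0
      rw [h, log_one])))
  choose x hx using fun v : HeightOneSpectrum (𝓞 F) => exists_div_eq_single F v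
  have hcl : (0 : ℤ) < (classNumber F : ℤ) := by exact_mod_cast classNumber_pos F
  set e : HeightOneSpectrum (𝓞 F) → ℤ := fun v =>
    ord v α₀ - log (Valued.v (a v : v.adicCompletion F)) with he
  have hdiv : ∀ T : Finset (HeightOneSpectrum (𝓞 F)), ∀ w : HeightOneSpectrum (𝓞 F),
      ord w (∏ v ∈ T, x v ^ (-(e v / (classNumber F : ℤ)))) =
        if w ∈ T then -(e w / (classNumber F : ℤ)) * (classNumber F : ℤ) else 0 := by
    have hz : ∀ (w : HeightOneSpectrum (𝓞 F)) (y : Fˣ) (n : ℤ), ord w (y ^ n) = n * ord w y := by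
      intro w y n
      rw [ord, ord, map_zpow, toAdd_zpow, smul_eq_mul]
      ring
    intro T w
    induction T using Finset.induction_on with
    | empty => simp
    | insert b T hb ih =>
      rw [Finset.prod_insert hb, ord_mul, ih, hz]
      have h1 : ord w (x b) = if w = b then (classNumber F : ℤ) else 0 := by
        have := DFunLike.congr_fun (hx b) w
        rw [div_apply, Finsupp.single_apply] at this
        rw [this]
        simp only [eq_comm]
      rw [h1]
      by_cases h2 : w = b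
      · subst h2
        simp [hb]
      · simp [h2]
  have hval : ∀ (α : Fˣ) (v : HeightOneSpectrum (𝓞 F)),
      Valued.v (algebraMap F (v.adicCompletion F) α * a v) =
        exp (-(ord v α - log (Valued.v (a v : v.adicCompletion F)))) := by
    intro α v
    rw [map_mul, hav v]
    have := v_ι v (α : F)
    rw [ι] at this
    rw [this, valuation_eq_exp_neg_ord, ← exp_add, log_exp]
    congr 1
    ring
  refine ⟨α₀ * ∏ v ∈ S₁, x v ^ (-(e v / (classNumber F : ℤ))), fun v hv => ?_, fun v hv => ?_⟩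
  · rw [hval, ord_mul, hdiv, if_neg hv, hα₀ v (by simpa using hv), Finsupp.ofSupportFinite_coe,
      add_zero, sub_self, neg_zero, exp_zero]
  · rw [hval, ord_mul, hdiv, if_pos hv]
    have h1 : ord v α₀ + -(e v / (classNumber F : ℤ)) * (classNumber F : ℤ) -
        log (Valued.v (a v : v.adicCompletion F)) = e v % (classNumber F : ℤ) := by
      rw [Int.emod_def, he]
      ring
    rw [h1]
    have h2 := Int.emod_nonneg (e v) hcl.ne'
    have h3 := Int.emod_lt_of_pos (e v) hcl
    refine ⟨?_, ?_⟩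
    · rw [← exp_zero, exp_le_exp]
      omega
    · rw [exp_le_exp]
      omega

/-- An adele can be made integral by adding an element of `F`. -/
theorem exists_adjust_add (b : ∀ v : HeightOneSpectrum (𝓞 F), v.adicCompletion F)
    (hb : {v | ¬ Valued.v (b v) ≤ 1}.Finite) :
    ∃ β : F, ∀ v, Valued.v (b v + algebraMap F (v.adicCompletion F) β) ≤ 1 := by
  classical
  obtain ⟨β, hβ, h⟩ := exists_OS_approx hb.toFinset (fun v => -b v.1) (γ := 1) one_ne_zero
  refine ⟨β, fun v => ?_⟩
  by_cases hv : Valued.v (b v) ≤ 1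
  · refine (Valuation.map_add _ _ _).trans (max_le hv ?_)
    rw [← ι, v_ι]
    exact mem_OS_iff.mp hβ v (by simpa using hv)
  · have h1 := h ⟨v, by simpa using hv⟩
    rw [sub_neg_eq_add, add_comm] at h1
    exact h1.le

end Global

/-! ### The representatives `bor a b * k` -/

section Rep

variable (U : Lev F)

/-- The exceptional places of the level. -/
def Lev.bad : Finset (HeightOneSpectrum (𝓞 F)) := U.ae.toFinset

theorem Lev.eq_of_notMem_bad {v : HeightOneSpectrum (𝓞 F)} (hv : v ∉ U.bad) :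
    U.U v = GLO (Valued.v : Valuation (v.adicCompletion F) ℤᵐ⁰) := by
  by_contra h
  exact hv (by simpa [Lev.bad] using h)

/-- local representatives, trivial at the base points outside the bad places. -/
theorem exists_local_rep (v : HeightOneSpectrum (𝓞 F)) (d : Dv U v) :
    ∃ (a : (v.adicCompletion F)ˣ) (b : v.adicCompletion F) (k : GL (Fin 2) (v.adicCompletion F)),
      k ∈ GLO (Valued.v : Valuation (v.adicCompletion F) ℤᵐ⁰) ∧
      d = Cos.mk (U.U v) (bor a b * k) ∧ (d = base U v → a = 1 ∧ b = 0 ∧ k = 1) := by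
  by_cases hd : d = base U v
  · exact ⟨1, 0, 1, Subgroup.one_mem _, by rw [bor_one, one_mul, hd], fun _ => ⟨rfl, rfl, rfl⟩⟩
  · obtain ⟨g, rfl⟩ := Cos.mk_surjective d
    obtain ⟨z, a, b, k, hk, hg⟩ := exists_iwasawa
      (w := (Valued.v : Valuation (v.adicCompletion F) ℤᵐ⁰)) g
    refine ⟨a, b, k, hk, ?_, fun h => absurd h hd⟩
    rw [hg, mul_assoc, Cos.mk_scalar_mul]

/-- **Every point of `D` is `B(F)`-equivalent to one of finitely many points.** -/
theorem exists_bor_smul_mem : ∃ T : Finset (D U), ∀ d : D U, ∃ (α : Fˣ) (β : F),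
    bor α β • d ∈ T := by
  classical
  obtain ⟨S₁, hS₁, hcl⟩ := CFT.SUnits.exists_clTrivial U.bad
  set P : Set (D U) := {d | (∀ v ∉ S₁, d v = base U v) ∧ ∀ v, d v ∈ PSet U v (classNumber F)}
    with hP
  have hfin : P.Finite := by
    refine ((Set.Finite.pi' fun v : S₁ => finite_PSet U v.1 (classNumber F)).image
      (RProd.ofFin S₁)).subset fun d hd => ?_
    exact ⟨fun v => d v, fun v => hd.2 v, RProd.ofFin_restrict hd.1⟩
  refine ⟨hfin.toFinset, fun d => ?_⟩
  choose a b k hk hd hbase using fun v => exists_local_rep U v (d v)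
  obtain ⟨α, hα, hα'⟩ := exists_adjust_mul hcl a (d.fin.subset fun v hv h => hv (by
    rw [(hbase v h).1]; simp))
  obtain ⟨β, hβ⟩ := exists_adjust_add
    (fun v => algebraMap F (v.adicCompletion F) α * b v) (d.fin.subset fun v hv h => hv (by
      rw [(hbase v h).2.1, mul_zero, map_zero]; exact zero_le))
  refine ⟨α, β, ?_⟩
  rw [Set.Finite.mem_toFinset]
  have hval : ∀ v, (bor α β • d) v = Cos.mk (U.U v)
      (bor (Units.map (algebraMap F (v.adicCompletion F) : F →* v.adicCompletion F) α * a v)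
        (algebraMap F (v.adicCompletion F) α * b v + algebraMap F (v.adicCompletion F) β) *
          k v) := by
    intro v
    rw [RProd.smul_apply, hd v, smulF_def, Cos.smul_mk, gmap, map_bor, ← mul_assoc, bor_mul]
    rfl
  refine ⟨fun v hv => ?_, fun v => ?_⟩
  · have hU := U.eq_of_notMem_bad (fun h => hv (hS₁ h))
    rw [hval, Cos.mk_mul (by rw [hU]; exact hk v)]
    refine Cos.mk_eq_one_iff.mpr ⟨1, _, ?_, by rw [map_one, one_mul]⟩
    rw [hU]
    exact bor_mem_GLO (hα v hv) (hβ v)
  · rw [hval]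
    refine ⟨_, rfl, ?_, ?_⟩
    · have h1 : Bd (Valued.v : Valuation (v.adicCompletion F) ℤᵐ⁰)
          (bor (Units.map (algebraMap F (v.adicCompletion F) : F →* v.adicCompletion F) α * a v)
            (algebraMap F (v.adicCompletion F) α * b v + algebraMap F (v.adicCompletion F) β) :
            Matrix (Fin 2) (Fin 2) (v.adicCompletion F)) 1 := by
        intro i j
        have h2 : Valued.v (algebraMap F (v.adicCompletion F) α * a v) ≤ 1 := by
          by_cases hv : v ∈ S₁
          · exact (hα' v hv).1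
          · exact (hα v hv).le
        have h3 := hβ v
        fin_cases i <;> fin_cases j
        · exact h2
        · exact h3
        · show Valued.v (0 : v.adicCompletion F) ≤ 1
          rw [map_zero]; exact zero_le
        · show Valued.v (1 : v.adicCompletion F) ≤ 1
          rw [map_one]
      have h4 := h1.mul (hk v).1
      rw [one_mul] at h4
      rw [GeneralLinearGroup.coe_mul]
      exact h4
    · rw [map_mul, det_bor, Units.val_mul, map_mul, (hk v).2, mul_one]
      show _ ≤ Valued.v (algebraMap F (v.adicCompletion F) α * a v)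
      by_cases hv : v ∈ S₁
      · exact (hα' v hv).2
      · rw [hα v hv, ← exp_zero, exp_le_exp]
        omega

end Rep

/-! ### Stabilisers -/

section Stab

variable (U : Lev F)

/-- a bound for a representative and its inverse. -/
theorem exists_exp_bd {v : HeightOneSpectrum (𝓞 F)} (g : GL (Fin 2) (v.adicCompletion F)) :
    ∃ n : ℕ, Bd (Valued.v : Valuation (v.adicCompletion F) ℤᵐ⁰)
        (g : Matrix (Fin 2) (Fin 2) (v.adicCompletion F)) (exp (n : ℤ)) ∧
      Bd (Valued.v : Valuation (v.adicCompletion F) ℤᵐ⁰)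
        ((g⁻¹ : GL (Fin 2) (v.adicCompletion F)) : Matrix (Fin 2) (Fin 2) (v.adicCompletion F))
          (exp (n : ℤ)) := by
  obtain ⟨γ, -, hγ⟩ := exists_bd (Valued.v : Valuation (v.adicCompletion F) ℤᵐ⁰)
    (g : Matrix (Fin 2) (Fin 2) (v.adicCompletion F))
  obtain ⟨δ, -, hδ⟩ := exists_bd (Valued.v : Valuation (v.adicCompletion F) ℤᵐ⁰)
    ((g⁻¹ : GL (Fin 2) (v.adicCompletion F)) : Matrix (Fin 2) (Fin 2) (v.adicCompletion F))
  obtain ⟨n, hn⟩ := exists_le_exp γ
  obtain ⟨m, hm⟩ := exists_le_exp δ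
  refine ⟨n + m, hγ.mono (hn.trans ?_), hδ.mono (hm.trans ?_)⟩
  · rw [exp_le_exp]; push_cast; omega
  · rw [exp_le_exp]; push_cast; omega

theorem exists_close_smul (v : HeightOneSpectrum (𝓞 F)) (d : Dv U v) :
    ∃ n : ℕ, ∀ x : GL (Fin 2) (v.adicCompletion F),
      Bd (Valued.v : Valuation (v.adicCompletion F) ℤᵐ⁰)
        ((x : Matrix (Fin 2) (Fin 2) (v.adicCompletion F)) - 1) (exp (-(n : ℤ))) → x • d = d := by
  obtain ⟨g, rfl⟩ := Cos.mk_surjective d
  obtain ⟨r, hr, hr'⟩ := exists_exp_bd g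
  obtain ⟨n, hn⟩ := U.isOpen v
  refine ⟨r + r + n, fun x hx => ?_⟩
  refine Cos.smul_mk_eq_iff.mpr ⟨1, g⁻¹ * x * g, hn _ ?_, by rw [map_one, one_mul]; group⟩
  have h2 : ((g⁻¹ * x * g : GL (Fin 2) (v.adicCompletion F)) :
      Matrix (Fin 2) (Fin 2) (v.adicCompletion F)) - 1 =
      ((g⁻¹ : GL (Fin 2) (v.adicCompletion F)) : Matrix (Fin 2) (Fin 2) (v.adicCompletion F)) *
        ((x : Matrix (Fin 2) (Fin 2) (v.adicCompletion F)) - 1) *
        (g : Matrix (Fin 2) (Fin 2) (v.adicCompletion F)) := by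
    rw [mul_sub, sub_mul, mul_one, ← GeneralLinearGroup.coe_mul g⁻¹ g, inv_mul_cancel,
      GeneralLinearGroup.coe_one, GeneralLinearGroup.coe_mul, GeneralLinearGroup.coe_mul]
  rw [h2]
  refine ((hr'.mul hx).mul hr).mono ?_
  rw [← exp_add, ← exp_add, exp_le_exp]
  push_cast
  omega

theorem val_gmap (v : HeightOneSpectrum (𝓞 F)) (g : GL (Fin 2) F) (i j : Fin 2) :
    Valued.v (gmap v g i j) = v.valuation F (g i j) := v_ι v (g i j)

theorem det_gmap (v : HeightOneSpectrum (𝓞 F)) (g : GL (Fin 2) F) :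
    (((gmap v g).det : (v.adicCompletion F)ˣ) : v.adicCompletion F) =
      algebraMap F (v.adicCompletion F) g.1.det := by
  rw [GeneralLinearGroup.val_det_apply, RingHom.map_det]
  rfl

theorem val_det_gmap (v : HeightOneSpectrum (𝓞 F)) (g : GL (Fin 2) F) :
    Valued.v (((gmap v g).det : (v.adicCompletion F)ˣ) : v.adicCompletion F) =
      v.valuation F g.1.det := by
  rw [det_gmap]
  exact v_ι v _

theorem gmap_mem_GLO_iff {v : HeightOneSpectrum (𝓞 F)} {g : GL (Fin 2) F} :
    gmap v g ∈ GLO (Valued.v : Valuation (v.adicCompletion F) ℤᵐ⁰) ↔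
      (∀ i j, v.valuation F (g i j) ≤ 1) ∧ v.valuation F g.1.det = 1 := by
  rw [mem_GLO, val_det_gmap]
  refine and_congr_left fun _ => forall_congr' fun i => forall_congr' fun j => ?_
  rw [val_gmap]

/-- the places where something happens for `d` -/
theorem finite_badD (d : D U) : {v | d v ≠ base U v ∨ v ∈ U.bad}.Finite :=
  d.fin.union U.bad.finite_toSet

theorem open_stab (d : D U) : ∃ m : ℕ, m ≠ 0 ∧ ∀ g : GL (Fin 2) F, IsCong F m g → g • d = d := by
  classical
  choose n hn using fun v => exists_close_smul U v (d v)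
  obtain ⟨m, hm, hmS⟩ := exists_nat_valuation_le (finite_badD U d).toFinset n
  refine ⟨m, hm, fun g hg => RProd.ext' fun v => ?_⟩
  have hm' : (m : F) ≠ 0 := by exact_mod_cast hm
  have h1 : ∀ i j, v.valuation F (g i j - (1 : Matrix (Fin 2) (Fin 2) F) i j) ≤
      v.valuation F (m : F) := by
    intro i j
    have h := valuation_le_of_isIntegral (hg.1 i j) v
    rw [map_div₀] at h
    rwa [div_le_one₀ (zero_lt_iff.mpr ((Valuation.ne_zero_iff _).mpr hm'))] at h
  rw [RProd.smul_apply, smulF_def]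
  by_cases hv : v ∈ (finite_badD U d).toFinset
  · refine hn v _ fun i j => ?_
    rw [Matrix.sub_apply]
    have h2 : gmap v g i j - (1 : Matrix (Fin 2) (Fin 2) (v.adicCompletion F)) i j =
        ι v (g i j - (1 : Matrix (Fin 2) (Fin 2) F) i j) := by
      rw [map_sub, gmap_apply]
      congr 1
      rw [Matrix.one_apply, Matrix.one_apply]
      split_ifs <;> simp
    rw [h2, v_ι]
    exact (h1 i j).trans (hmS v hv)
  · simp only [Set.Finite.mem_toFinset, Set.mem_ofPred_eq, not_or, not_not] at hv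
    rw [hv.1]
    have hint : ∀ i j, v.valuation F (g i j) ≤ 1 := by
      intro i j
      have h3 : g i j = (g i j - (1 : Matrix (Fin 2) (Fin 2) F) i j) +
          (1 : Matrix (Fin 2) (Fin 2) F) i j := by ring
      rw [h3]
      refine (Valuation.map_add _ _ _).trans (max_le ((h1 i j).trans (valuation_natCast_le v m))
        (bd_one i j))
    have hdet : v.valuation F g.1.det ≤ 1 := by
      have := val_det_le (w := v.valuation F) (A := g.1) (γ := 1) hint
      rwa [one_mul] at this
    have hdet' : v.valuation F g.1.det = 1 := by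
      refine le_antisymm hdet ?_
      have h4 := valuation_le_of_isIntegral hg.2 v
      rw [map_inv₀] at h4
      have h5 : g.1.det ≠ 0 := by
        have := (g.det : Fˣ).ne_zero
        rwa [GeneralLinearGroup.val_det_apply] at this
      rwa [inv_le_one₀ (zero_lt_iff.mpr ((Valuation.ne_zero_iff _).mpr h5))] at h4
    rw [Cos.smul_mk, mul_one]
    refine Cos.mk_eq_one_iff.mpr ⟨1, gmap v g, ?_, by rw [map_one, one_mul]⟩
    rw [U.eq_of_notMem_bad hv.2]
    exact gmap_mem_GLO_iff.mpr ⟨hint, hdet'⟩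

/-- the entries of an element of the stabiliser of a class. -/
theorem exists_quad_bd (v : HeightOneSpectrum (𝓞 F)) (d : Dv U v) :
    ∃ n : ℕ, ∀ x : GL (Fin 2) (v.adicCompletion F), x • d = d → ∀ i j k l : Fin 2,
      Valued.v (x i j * x k l / x.1.det) ≤ exp (n : ℤ) := by
  obtain ⟨g, rfl⟩ := Cos.mk_surjective d
  obtain ⟨r, hr, hr'⟩ := exists_exp_bd g
  refine ⟨4 * r, fun x hx i j k l => ?_⟩
  obtain ⟨z, y, hy, rfl⟩ := Cos.smul_mk_eq_iff.mp hx
  have hy' := U.le v hy
  have h1 : Bd (Valued.v : Valuation (v.adicCompletion F) ℤᵐ⁰)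
      ((g * y * g⁻¹ : GL (Fin 2) (v.adicCompletion F)) :
        Matrix (Fin 2) (Fin 2) (v.adicCompletion F)) (exp ((2 * r : ℕ) : ℤ)) := by
    rw [GeneralLinearGroup.coe_mul, GeneralLinearGroup.coe_mul]
    refine ((hr.mul hy'.1).mul hr').mono ?_
    rw [mul_one, ← exp_add, exp_le_exp]
    push_cast
    omega
  set u := g * y * g⁻¹ with hu
  have hdu : Valued.v (u.1.det) = 1 := by
    rw [← GeneralLinearGroup.val_det_apply, hu, map_mul, map_mul, map_inv, Units.val_mul,
      Units.val_mul, map_mul, map_mul, hy'.2, mul_one, Units.val_inv_eq_inv_val, map_inv₀]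
    exact mul_inv_cancel₀ ((Valuation.ne_zero_iff _).mpr (Units.ne_zero _))
  rw [quad_scalar_mul]
  refine (val_quad_le h1 i j k l).trans ?_
  rw [hdu, inv_one, mul_one, ← exp_add, exp_le_exp]
  push_cast
  omega

theorem bounded_stab (d : D U) : ∃ m : ℕ, m ≠ 0 ∧ ∀ g : GL (Fin 2) F, g • d = d →
    ∀ i j k l, IsIntegral ℤ ((m : F) * (g i j * g k l / g.1.det)) := by
  classical
  choose n hn using fun v => exists_quad_bd U v (d v)
  obtain ⟨m, hm, hmS⟩ := exists_nat_valuation_le (finite_badD U d).toFinset n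
  refine ⟨m, hm, fun g hg i j k l => isIntegral_of_valuation_le fun v => ?_⟩
  have hgv : gmap v g • d v = d v := congrArg (fun x : D U => x v) hg
  have h1 : v.valuation F (g i j * g k l / g.1.det) =
      Valued.v (gmap v g i j * gmap v g k l / (gmap v g).1.det) := by
    rw [← GeneralLinearGroup.val_det_apply (gmap v g), det_gmap, gmap_apply, gmap_apply,
      ← map_mul, ← map_div₀]
    exact (v_ι v _).symm
  rw [map_mul, h1]
  by_cases hv : v ∈ (finite_badD U d).toFinset
  · calc _ ≤ exp (-(n v : ℤ)) * exp (n v : ℤ) := mul_le_mul' (hmS v hv) (hn v _ hgv i j k l)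
      _ = 1 := by rw [← exp_add, neg_add_cancel, exp_zero]
  · simp only [Set.Finite.mem_toFinset, Set.mem_ofPred_eq, not_or, not_not] at hv
    refine (mul_le_mul' (valuation_natCast_le v m) ?_).trans_eq (one_mul 1)
    rw [hv.1] at hgv
    obtain ⟨z, y, hy, hx⟩ := Cos.smul_mk_eq_iff.mp hgv
    rw [one_mul, inv_one, mul_one] at hx
    rw [hx, quad_scalar_mul]
    have hy' := U.le v hy
    refine (val_quad_le hy'.1 i j k l).trans ?_
    rw [← GeneralLinearGroup.val_det_apply, hy'.2, inv_one, mul_one, mul_one]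

theorem countable_D : Countable (D U) := by
  have : Countable F := (Module.finBasis ℚ F).equivFun.injective.countable
  have : Countable (Matrix (Fin 2) (Fin 2) F) := inferInstanceAs (Countable (Fin 2 → Fin 2 → F))
  have : Countable (GL (Fin 2) F) :=
    Function.Injective.countable (f := fun g : GL (Fin 2) F => g.1) Units.val_injective
  obtain ⟨T, hT⟩ := exists_bor_smul_mem U
  have h : Function.Surjective (fun p : GL (Fin 2) F × T => p.1 • (p.2 : D U)) := by
    intro d
    obtain ⟨α, β, h⟩ := hT d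
    exact ⟨⟨(bor α β)⁻¹, ⟨_, h⟩⟩, inv_smul_smul _ _⟩
  exact h.countable

/-- **`D U` is a level.** -/
instance isLevel : IsLevel F (D U) where
  countable := countable_D U
  finite_orbits := by
    obtain ⟨T, hT⟩ := exists_bor_smul_mem U
    refine ⟨T, fun d => ?_⟩
    obtain ⟨α, β, h⟩ := hT d
    exact ⟨_, h⟩
  open_stab := open_stab U
  bounded_stab := bounded_stab U

end Stab

end Fermat.Agent.LT.Lvl

end
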