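import Fermat.Agent.LT.Level.Change

/-!
# Discrete structures on `D U` (helper34)
-/

set_option autoImplicit false

open MeasureTheory NumberField IsDedekindDomain

namespace Fermat.Agent.LT.Lvl

variable {F : Type*} [Field F] [NumberField F] (U : Lev F)

instance : Countable (D U) := countable_D U

instance : MeasurableSpace (D U) := ⊤

instance : DiscreteMeasurableSpace (D U) := ⟨fun _ => trivial⟩

instance : TopologicalSpace (D U) := ⊥

instance : DiscreteTopology (D U) := ⟨rfl⟩

instance : BorelSpace (D U) := ⟨by rw [borel_eq_top_of_discrete]; rfl⟩

example : MeasurableSingletonClass (D U) := inferInstance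

end Fermat.Agent.LT.Lvl
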