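import Mathlib

/-!
# `GL₂` over a valued field: maximal compact subgroup, Iwasawa decomposition (helper34)

`w` a valuation on a field `E`.

* `bor a b = (a b; 0 1)`;
* `GLO w`: matrices with entries of valuation `≤ 1` and determinant of valuation `1`;
* `exists_iwasawa`: `g = scalar z * bor a b * k`, `k ∈ GLO w`;
* `BCong w γ`: matrices congruent to `1` modulo `γ`.
-/

set_option autoImplicit false

open Matrix

namespace Fermat.Agent.LT.Lvl

section Bor

variable {R : Type*} [CommRing R]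

/-- the upper triangular matrix `(a b; 0 1)`. -/
def bor (a : Rˣ) (b : R) : GL (Fin 2) R where
  val := !![(a : R), b; 0, 1]
  inv := !![((a⁻¹ : Rˣ) : R), -((a⁻¹ : Rˣ) : R) * b; 0, 1]
  val_inv := by
    ext i j
    fin_cases i <;> fin_cases j <;> simp [Matrix.mul_apply, Fin.sum_univ_two]
  inv_val := by
    ext i j
    fin_cases i <;> fin_cases j <;> simp [Matrix.mul_apply, Fin.sum_univ_two]

theorem coe_bor (a : Rˣ) (b : R) : (bor a b : Matrix (Fin 2) (Fin 2) R) = !![(a : R), b; 0, 1] :=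
  rfl

@[simp] theorem bor_00 (a : Rˣ) (b : R) : (bor a b) 0 0 = a := rfl
@[simp] theorem bor_01 (a : Rˣ) (b : R) : (bor a b) 0 1 = b := rfl
@[simp] theorem bor_10 (a : Rˣ) (b : R) : (bor a b) 1 0 = 0 := rfl
@[simp] theorem bor_11 (a : Rˣ) (b : R) : (bor a b) 1 1 = 1 := rfl

theorem bor_mul (a a' : Rˣ) (b b' : R) : bor a b * bor a' b' = bor (a * a') (a * b' + b) := by
  ext i j
  fin_cases i <;> fin_cases j <;>
    simp [coe_bor, Matrix.mul_apply, Fin.sum_univ_two]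

theorem bor_one : bor (1 : Rˣ) (0 : R) = 1 := by
  ext i j
  fin_cases i <;> fin_cases j <;> simp [coe_bor]

theorem bor_inv (a : Rˣ) (b : R) : (bor a b)⁻¹ = bor a⁻¹ (-((a⁻¹ : Rˣ) : R) * b) := by
  rw [inv_eq_iff_mul_eq_one, bor_mul, ← bor_one]
  congr 1
  · simp
  · simp

theorem det_bor (a : Rˣ) (b : R) : (bor a b).det = a := by
  ext
  rw [Matrix.GeneralLinearGroup.val_det_apply, coe_bor, Matrix.det_fin_two_of]
  simp

theorem map_bor {R' : Type*} [CommRing R'] (f : R →+* R') (a : Rˣ) (b : R) :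
    Matrix.GeneralLinearGroup.map f (bor a b) = bor (Units.map (f : R →* R') a) (f b) := by
  ext i j
  fin_cases i <;> fin_cases j <;> simp [coe_bor]

end Bor

section Val

variable {E Γ : Type*} [Field E] [LinearOrderedCommGroupWithZero Γ] (w : Valuation E Γ)

/-- all entries have valuation at most `γ`. -/
def Bd (A : Matrix (Fin 2) (Fin 2) E) (γ : Γ) : Prop := ∀ i j, w (A i j) ≤ γ

variable {w}

theorem Bd.mono {A : Matrix (Fin 2) (Fin 2) E} {γ δ : Γ} (h : Bd w A γ) (hle : γ ≤ δ) :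
    Bd w A δ := fun i j => (h i j).trans hle

theorem Bd.mul {A B : Matrix (Fin 2) (Fin 2) E} {γ δ : Γ} (hA : Bd w A γ) (hB : Bd w B δ) :
    Bd w (A * B) (γ * δ) := by
  intro i j
  rw [Matrix.mul_apply, Fin.sum_univ_two]
  refine (w.map_add _ _).trans (max_le ?_ ?_)
  · rw [map_mul]; exact mul_le_mul' (hA _ _) (hB _ _)
  · rw [map_mul]; exact mul_le_mul' (hA _ _) (hB _ _)

theorem Bd.add {A B : Matrix (Fin 2) (Fin 2) E} {γ : Γ} (hA : Bd w A γ) (hB : Bd w B γ) :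
    Bd w (A + B) γ := fun i j => (w.map_add _ _).trans (max_le (hA _ _) (hB _ _))

theorem Bd.neg {A : Matrix (Fin 2) (Fin 2) E} {γ : Γ} (hA : Bd w A γ) : Bd w (-A) γ :=
  fun i j => by rw [Matrix.neg_apply, Valuation.map_neg]; exact hA i j

theorem Bd.sub {A B : Matrix (Fin 2) (Fin 2) E} {γ : Γ} (hA : Bd w A γ) (hB : Bd w B γ) :
    Bd w (A - B) γ := by rw [sub_eq_add_neg]; exact hA.add hB.neg

theorem Bd.smul {A : Matrix (Fin 2) (Fin 2) E} {γ : Γ} (hA : Bd w A γ) (c : E) :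
    Bd w (c • A) (w c * γ) := fun i j => by
  rw [Matrix.smul_apply, smul_eq_mul, map_mul]; exact mul_le_mul' le_rfl (hA i j)

theorem bd_one : Bd w (1 : Matrix (Fin 2) (Fin 2) E) 1 := by
  intro i j
  rw [Matrix.one_apply]
  split_ifs <;> simp

variable (w) in
theorem exists_bd (A : Matrix (Fin 2) (Fin 2) E) : ∃ γ : Γ, γ ≠ 0 ∧ Bd w A γ := by
  refine ⟨max 1 (max (max (w (A 0 0)) (w (A 0 1))) (max (w (A 1 0)) (w (A 1 1)))), ?_, ?_⟩
  · exact (lt_of_lt_of_le zero_lt_one (le_max_left _ _)).ne'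
  · intro i j
    refine le_trans ?_ (le_max_right _ _)
    fin_cases i <;> fin_cases j <;> simp

theorem val_det_le {A : Matrix (Fin 2) (Fin 2) E} {γ : Γ} (hA : Bd w A γ) : w A.det ≤ γ * γ := by
  rw [Matrix.det_fin_two]
  refine (w.map_sub _ _).trans (max_le ?_ ?_)
  · rw [map_mul]; exact mul_le_mul' (hA _ _) (hA _ _)
  · rw [map_mul]; exact mul_le_mul' (hA _ _) (hA _ _)

theorem coe_inv_eq (g : GL (Fin 2) E) :
    ((g⁻¹ : GL (Fin 2) E) : Matrix (Fin 2) (Fin 2) E) =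
      ((g.det : Eˣ) : E)⁻¹ • Matrix.adjugate (g : Matrix (Fin 2) (Fin 2) E) := by
  rw [Matrix.GeneralLinearGroup.coe_inv, Matrix.inv_def, Ring.inverse_eq_inv']
  rfl

theorem Bd.adjugate {A : Matrix (Fin 2) (Fin 2) E} {γ : Γ} (hA : Bd w A γ) :
    Bd w A.adjugate γ := by
  rw [Matrix.adjugate_fin_two]
  intro i j
  fin_cases i <;> fin_cases j <;> simp [Valuation.map_neg, hA 0 0, hA 0 1, hA 1 0, hA 1 1]

/-- the valuation of the inverse. -/
theorem Bd.inv {g : GL (Fin 2) E} {γ : Γ} (h : Bd w (g : Matrix (Fin 2) (Fin 2) E) γ) :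
    Bd w ((g⁻¹ : GL (Fin 2) E) : Matrix (Fin 2) (Fin 2) E)
      ((w ((g.det : Eˣ) : E))⁻¹ * γ) := by
  rw [coe_inv_eq, ← map_inv₀]
  exact h.adjugate.smul _

variable (w) in
/-- the maximal compact subgroup. -/
def GLO : Subgroup (GL (Fin 2) E) where
  carrier := {g | Bd w (g : Matrix (Fin 2) (Fin 2) E) 1 ∧ w ((g.det : Eˣ) : E) = 1}
  mul_mem' := by
    rintro g h ⟨hg, hg'⟩ ⟨hh, hh'⟩
    refine ⟨?_, ?_⟩
    · have := hg.mul hh
      rwa [one_mul] at this
    · rw [map_mul, Units.val_mul, map_mul, hg', hh', one_mul]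
  one_mem' := ⟨bd_one, by simp⟩
  inv_mem' := by
    rintro g ⟨hg, hg'⟩
    refine ⟨?_, ?_⟩
    · have := hg.inv
      rwa [hg', inv_one, one_mul] at this
    · rw [map_inv, Units.val_inv_eq_inv_val, map_inv₀, hg', inv_one]

theorem mem_GLO {g : GL (Fin 2) E} : g ∈ GLO w ↔
    Bd w (g : Matrix (Fin 2) (Fin 2) E) 1 ∧ w ((g.det : Eˣ) : E) = 1 := Iff.rfl

theorem mem_GLO_iff {g : GL (Fin 2) E} : g ∈ GLO w ↔
    Bd w (g : Matrix (Fin 2) (Fin 2) E) 1 ∧
      Bd w ((g⁻¹ : GL (Fin 2) E) : Matrix (Fin 2) (Fin 2) E) 1 := by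
  refine ⟨fun h => ⟨h.1, ((GLO w).inv_mem h).1⟩, fun h => ⟨h.1, ?_⟩⟩
  have h1 : w ((g.det : Eˣ) : E) ≤ 1 := by
    have := val_det_le h.1
    rwa [one_mul] at this
  have h2 : w (((g⁻¹).det : Eˣ) : E) ≤ 1 := by
    have := val_det_le h.2
    rwa [one_mul] at this
  rw [map_inv, Units.val_inv_eq_inv_val, map_inv₀] at h2
  have h0 : w ((g.det : Eˣ) : E) ≠ 0 := (Valuation.ne_zero_iff _).mpr (Units.ne_zero _)
  refine le_antisymm h1 ?_
  rwa [inv_le_one₀ (zero_lt_iff.mpr h0)] at h2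

theorem bor_mem_GLO {a : Eˣ} {b : E} (ha : w (a : E) = 1) (hb : w b ≤ 1) : bor a b ∈ GLO w := by
  refine ⟨?_, by rw [det_bor, ha]⟩
  intro i j
  fin_cases i <;> fin_cases j <;> simp [ha, hb]

/-- the Weyl element -/
def wey : GL (Fin 2) E where
  val := !![0, 1; 1, 0]
  inv := !![0, 1; 1, 0]
  val_inv := by
    ext i j
    fin_cases i <;> fin_cases j <;> simp [Matrix.mul_apply, Fin.sum_univ_two]
  inv_val := by
    ext i j
    fin_cases i <;> fin_cases j <;> simp [Matrix.mul_apply, Fin.sum_univ_two]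

theorem coe_wey : ((wey : GL (Fin 2) E) : Matrix (Fin 2) (Fin 2) E) = !![0, 1; 1, 0] := rfl

theorem wey_mem_GLO : (wey : GL (Fin 2) E) ∈ GLO w := by
  refine ⟨?_, ?_⟩
  · intro i j
    rw [coe_wey]
    fin_cases i <;> fin_cases j <;> simp
  · rw [Matrix.GeneralLinearGroup.val_det_apply, coe_wey, Matrix.det_fin_two_of]
    simp [Valuation.map_neg]

/-- lower triangular unipotent matrix -/
def low (c : E) : GL (Fin 2) E where
  val := !![1, 0; c, 1]
  inv := !![1, 0; -c, 1]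
  val_inv := by
    ext i j
    fin_cases i <;> fin_cases j <;> simp [Matrix.mul_apply, Fin.sum_univ_two]
  inv_val := by
    ext i j
    fin_cases i <;> fin_cases j <;> simp [Matrix.mul_apply, Fin.sum_univ_two]

theorem coe_low (c : E) : ((low c : GL (Fin 2) E) : Matrix (Fin 2) (Fin 2) E) = !![1, 0; c, 1] :=
  rfl

theorem low_mem_GLO {c : E} (hc : w c ≤ 1) : low c ∈ GLO w := by
  refine ⟨?_, ?_⟩
  · intro i j
    rw [coe_low]
    fin_cases i <;> fin_cases j <;> simp [hc]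
  · rw [Matrix.GeneralLinearGroup.val_det_apply, coe_low, Matrix.det_fin_two_of]
    simp

/-- an upper triangular matrix is scalar times `bor`. -/
theorem exists_bor_of_lower_zero {g : GL (Fin 2) E} (h : g 1 0 = 0) :
    ∃ (z a : Eˣ) (b : E), g = Matrix.GeneralLinearGroup.scalar (Fin 2) z * bor a b := by
  have hd : (g : Matrix (Fin 2) (Fin 2) E).det = g 0 0 * g 1 1 := by
    rw [Matrix.det_fin_two, h]
    ring
  have hd0 : g 0 0 * g 1 1 ≠ 0 := by
    rw [← hd, ← Matrix.GeneralLinearGroup.val_det_apply]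
    exact Units.ne_zero _
  have h0 : g 0 0 ≠ 0 := left_ne_zero_of_mul hd0
  have h1 : g 1 1 ≠ 0 := right_ne_zero_of_mul hd0
  refine ⟨Units.mk0 _ h1, Units.mk0 (g 0 0 / g 1 1) (div_ne_zero h0 h1), g 0 1 / g 1 1, ?_⟩
  ext i j
  have e : ∀ i j, (Matrix.GeneralLinearGroup.scalar (Fin 2) (Units.mk0 _ h1) *
      bor (Units.mk0 (g 0 0 / g 1 1) (div_ne_zero h0 h1)) (g 0 1 / g 1 1) : GL (Fin 2) E) i j =
      g 1 1 * !![g 0 0 / g 1 1, g 0 1 / g 1 1; 0, 1] i j := by
    intro i j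
    rw [Matrix.GeneralLinearGroup.coe_mul, Matrix.GeneralLinearGroup.coe_scalar, coe_bor]
    simp [Matrix.scalar_apply, Matrix.diagonal_mul]
  rw [e]
  fin_cases i <;> fin_cases j
  · simp [mul_div_cancel₀, h1]
  · simp [mul_div_cancel₀, h1]
  · simp [h]
  · simp

/-- **Iwasawa decomposition.** -/
theorem exists_iwasawa (g : GL (Fin 2) E) : ∃ (z a : Eˣ) (b : E) (k : GL (Fin 2) E), k ∈ GLO w ∧
    g = Matrix.GeneralLinearGroup.scalar (Fin 2) z * bor a b * k := by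
  -- it suffices to find `k` with `(g * k) 1 0 = 0`
  suffices h : ∃ k ∈ GLO w, (g * k) 1 0 = 0 by
    obtain ⟨k, hk, h0⟩ := h
    obtain ⟨z, a, b, hz⟩ := exists_bor_of_lower_zero h0
    exact ⟨z, a, b, k⁻¹, (GLO w).inv_mem hk, by rw [← hz, mul_inv_cancel_right]⟩
  -- first case: `w c ≤ w d`
  have key : ∀ g : GL (Fin 2) E, w (g 1 0) ≤ w (g 1 1) → ∃ k ∈ GLO w, (g * k) 1 0 = 0 := by
    intro g hle
    have hd : g 1 1 ≠ 0 := by
      intro h
      have h0 : g 1 0 = 0 := by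
        rw [h, map_zero] at hle
        exact (Valuation.zero_iff w).mp (le_antisymm hle zero_le)
      have : (g : Matrix (Fin 2) (Fin 2) E).det = 0 := by
        rw [Matrix.det_fin_two, h, h0]; ring
      rw [← Matrix.GeneralLinearGroup.val_det_apply] at this
      exact Units.ne_zero _ this
    refine ⟨low (-(g 1 0 / g 1 1)), low_mem_GLO ?_, ?_⟩
    · rw [Valuation.map_neg, map_div₀]
      exact div_le_one_of_le₀ hle zero_le
    · rw [Matrix.GeneralLinearGroup.coe_mul, Matrix.mul_apply, Fin.sum_univ_two, coe_low]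
      simp [mul_div_cancel₀, hd]
  rcases le_total (w (g 1 0)) (w (g 1 1)) with h | h
  · exact key g h
  · obtain ⟨k, hk, hk0⟩ := key (g * wey) (by
      rw [Matrix.GeneralLinearGroup.coe_mul, Matrix.mul_apply, Matrix.mul_apply,
        Fin.sum_univ_two, Fin.sum_univ_two, coe_wey]
      simpa using h)
    exact ⟨wey * k, (GLO w).mul_mem wey_mem_GLO hk, by rw [← mul_assoc]; exact hk0⟩

end Val

end Fermat.Agent.LT.Lvl
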