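import Fermat.Agent.LT.Level.IsLevel

/-!
# Density of `GL₂(F)` and representatives (helper34)
-/

set_option autoImplicit false

open Matrix NumberField IsDedekindDomain WithZero Fermat.Agent.LT.Loc
open scoped WithZero

noncomputable section

namespace Fermat.Agent.LT.Lvl

/-! ### Closeness -/

section Close

variable {E : Type*} [Field E] {w : Valuation E ℤᵐ⁰}

theorem exists_bd_exp (A : Matrix (Fin 2) (Fin 2) E) : ∃ n : ℕ, Bd w A (exp (n : ℤ)) := by
  obtain ⟨γ, -, hγ⟩ := exists_bd w A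
  obtain ⟨n, hn⟩ := exists_le_exp γ
  exact ⟨n, hγ.mono hn⟩

theorem val_det_sub_le {A B : Matrix (Fin 2) (Fin 2) E} {γ δ : ℤᵐ⁰} (hA : Bd w A γ)
    (hB : Bd w B γ) (h : Bd w (A - B) δ) : w (A.det - B.det) ≤ γ * δ := by
  have h1 : A.det - B.det = A 0 0 * (A - B) 1 1 + (A - B) 0 0 * B 1 1 -
      (A 0 1 * (A - B) 1 0 + (A - B) 0 1 * B 1 0) := by
    rw [Matrix.det_fin_two, Matrix.det_fin_two]
    simp only [Matrix.sub_apply]
    ring
  have h2 : ∀ i j k l, w (A i j * (A - B) k l) ≤ γ * δ := fun i j k l => by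
    rw [map_mul]; exact mul_le_mul' (hA _ _) (h _ _)
  have h3 : ∀ i j k l, w ((A - B) i j * B k l) ≤ γ * δ := fun i j k l => by
    rw [map_mul, mul_comm]; exact mul_le_mul' (hB _ _) (h _ _)
  rw [h1]
  exact (w.map_sub _ _).trans (max_le ((w.map_add _ _).trans (max_le (h2 _ _ _ _) (h3 _ _ _ _)))
    ((w.map_add _ _).trans (max_le (h2 _ _ _ _) (h3 _ _ _ _))))

theorem Bd.of_sub {A B : Matrix (Fin 2) (Fin 2) E} {γ : ℤᵐ⁰} (hB : Bd w B γ)
    (h : Bd w (A - B) γ) : Bd w A γ := by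
  have := h.add hB
  rwa [sub_add_cancel] at this

/-- Matrices close to an invertible matrix. -/
theorem exists_close_bd (g : GL (Fin 2) E) (n : ℕ) : ∃ N : ℕ, ∀ A : Matrix (Fin 2) (Fin 2) E,
    Bd w (A - g.1) (exp (-(N : ℤ))) → w A.det = w g.1.det ∧
      Bd w ((g⁻¹ : GL (Fin 2) E).1 * A - 1) (exp (-(n : ℤ))) := by
  obtain ⟨r, hr⟩ := exists_bd_exp (w := w) g.1
  obtain ⟨r', hr'⟩ := exists_bd_exp (w := w) (g⁻¹ : GL (Fin 2) E).1
  have hd0 : w g.1.det ≠ 0 := (Valuation.ne_zero_iff _).mpr (det_val_ne_zero g)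
  obtain ⟨s, hs⟩ := exists_le_exp (w g.1.det)⁻¹
  have hs' : exp (-(s : ℤ)) ≤ w g.1.det := by
    rw [WithZero.exp_neg]
    exact inv_le_of_inv_le₀ (zero_lt_iff.mpr hd0) hs
  refine ⟨r + s + r' + n + 1, fun A hA => ?_⟩
  have hA' : Bd w A (exp (r : ℤ)) := hr.of_sub (hA.mono (by rw [exp_le_exp]; push_cast; omega))
  constructor
  · have h1 := val_det_sub_le hA' hr hA
    have h2 : w (A.det - g.1.det) < w g.1.det := by
      refine (h1.trans_lt ?_).trans_le hs'
      rw [← exp_add, exp_lt_exp]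
      push_cast
      omega
    have h3 := Valuation.map_add_eq_of_lt_left w h2
    rwa [add_sub_cancel] at h3
  · have h1 : (g⁻¹ : GL (Fin 2) E).1 * A - 1 = (g⁻¹ : GL (Fin 2) E).1 * (A - g.1) := by
      rw [mul_sub]
      congr 1
      exact (Units.inv_mul g).symm
    rw [h1]
    refine (hr'.mul hA).mono ?_
    rw [← exp_add, exp_le_exp]
    push_cast
    omega

end Close

variable {F : Type*} [Field F] [NumberField F]

/-- **`GL₂(F)` is dense in `∏_{v ∈ S} GL₂(F_v)`**, with `S`-integral approximations. -/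
theorem exists_GL_close (S : Finset (HeightOneSpectrum (𝓞 F)))
    (g : ∀ v : HeightOneSpectrum (𝓞 F), GL (Fin 2) (v.adicCompletion F)) (n : ℕ) :
    ∃ γ : GL (Fin 2) F, (∀ i j, γ i j ∈ OS S) ∧
      (∀ v ∈ S, Bd (Valued.v : Valuation (v.adicCompletion F) ℤᵐ⁰)
        ((gmap v γ : Matrix (Fin 2) (Fin 2) (v.adicCompletion F)) - (g v).1) (exp (-(n : ℤ)))) ∧
      ∀ v ∈ S, Bd (Valued.v : Valuation (v.adicCompletion F) ℤᵐ⁰)
        (((g v)⁻¹ * gmap v γ : GL (Fin 2) (v.adicCompletion F)).1 - 1) (exp (-(n : ℤ))) := by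
  classical
  rcases S.eq_empty_or_nonempty with rfl | ⟨v₀, hv₀⟩
  · refine ⟨1, fun i j => ?_, by simp, by simp⟩
    rw [GeneralLinearGroup.coe_one, Matrix.one_apply]
    split_ifs
    · exact one_mem _
    · exact zero_mem _
  choose N hN using fun v : HeightOneSpectrum (𝓞 F) =>
    exists_close_bd (w := (Valued.v : Valuation (v.adicCompletion F) ℤᵐ⁰)) (g v) n
  set M := S.sup N + n with hM
  choose a ha ha' using fun i j => exists_OS_approx S (fun v => (g v.1).1 i j)
    (γ := exp (-(M : ℤ))) exp_ne_zero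
  have hclose : ∀ v ∈ S, Bd (Valued.v : Valuation (v.adicCompletion F) ℤᵐ⁰)
      ((Matrix.of a).map (algebraMap F (v.adicCompletion F)) - (g v).1) (exp (-(M : ℤ))) :=
    fun v hv i j => (ha' i j ⟨v, hv⟩).le
  have hNle : ∀ v ∈ S, Bd (Valued.v : Valuation (v.adicCompletion F) ℤᵐ⁰)
      ((Matrix.of a).map (algebraMap F (v.adicCompletion F)) - (g v).1) (exp (-(N v : ℤ))) :=
    fun v hv => (hclose v hv).mono (by
      rw [exp_le_exp]
      have := Finset.le_sup (f := N) hv
      omega)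
  have hdet : (Matrix.of a).det ≠ 0 := by
    intro h
    have h1 := (hN v₀ _ (hNle v₀ hv₀)).1
    rw [← RingHom.mapMatrix_apply, ← RingHom.map_det, h, map_zero, map_zero] at h1
    exact (Valuation.ne_zero_iff _).mpr (det_val_ne_zero (g v₀)) h1.symm
  refine ⟨GeneralLinearGroup.mkOfDetNeZero (Matrix.of a) hdet, ha, fun v hv => ?_, fun v hv => ?_⟩
  · exact (hclose v hv).mono (by rw [exp_le_exp]; omega)
  · exact (hN v _ (hNle v hv)).2

variable (U : Lev F)

/-- **`GL₂(F)` is transitive on the finite products of the local spaces.** -/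
theorem exists_smul_base (S : Finset (HeightOneSpectrum (𝓞 F)))
    (d : ∀ v : HeightOneSpectrum (𝓞 F), Dv U v) :
    ∃ γ : GL (Fin 2) F, (∀ i j, γ i j ∈ OS S) ∧ ∀ v ∈ S, γ • base U v = d v := by
  classical
  choose g hg using fun v => Cos.mk_surjective (d v)
  choose n hn using U.isOpen
  obtain ⟨γ, h1, -, h2⟩ := exists_GL_close S g (S.sup n)
  refine ⟨γ, h1, fun v hv => ?_⟩
  have h3 : (g v)⁻¹ * gmap v γ ∈ U.U v := hn v _ ((h2 v hv).mono (by
    rw [exp_le_exp]
    have := Finset.le_sup (f := n) hv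
    omega))
  rw [smulF_def, Cos.smul_mk, mul_one, ← hg v, ← Cos.mk_mul (H := U.U v) (g := g v) h3,
    mul_inv_cancel_left]

/-- local scalars in `U v` -/
theorem exists_scalar_mem_of_close (v : HeightOneSpectrum (𝓞 F)) : ∃ n : ℕ,
    ∀ z : (v.adicCompletion F)ˣ, Valued.v ((z : v.adicCompletion F) - 1) ≤ exp (-(n : ℤ)) →
      GeneralLinearGroup.scalar (Fin 2) z ∈ U.U v := by
  obtain ⟨n, hn⟩ := U.isOpen v
  refine ⟨n, fun z hz => hn _ fun i j => ?_⟩
  rw [GeneralLinearGroup.coe_scalar, Matrix.sub_apply, Matrix.scalar_apply,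
    Matrix.diagonal_apply, Matrix.one_apply]
  split_ifs
  · exact hz
  · rw [sub_zero, map_zero]
    exact zero_le

/-- simultaneous approximation of units by `F^×` -/
theorem exists_units_close (S : Finset (HeightOneSpectrum (𝓞 F)))
    (z : ∀ v : HeightOneSpectrum (𝓞 F), (v.adicCompletion F)ˣ) (n : ℕ) :
    ∃ a : Fˣ, ∀ v ∈ S, Valued.v (((z v)⁻¹ : (v.adicCompletion F)ˣ) *
      algebraMap F (v.adicCompletion F) a - 1) ≤ exp (-(n : ℤ)) := by
  classical
  rcases S.eq_empty_or_nonempty with rfl | ⟨v₀, hv₀⟩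
  · exact ⟨1, by simp⟩
  have hz0 : ∀ v, Valued.v (z v : v.adicCompletion F) ≠ 0 := fun v =>
    (Valuation.ne_zero_iff _).mpr (z v).ne_zero
  choose r hr using fun v : HeightOneSpectrum (𝓞 F) =>
    exists_le_exp (Valued.v (z v : v.adicCompletion F))⁻¹
  obtain ⟨a, -, ha⟩ := exists_OS_approx S (fun v => (z v.1 : v.1.adicCompletion F))
    (γ := exp (-((S.sup r + n + 1 : ℕ) : ℤ))) exp_ne_zero
  have key : ∀ v ∈ S, Valued.v (((z v)⁻¹ : (v.adicCompletion F)ˣ) *
      algebraMap F (v.adicCompletion F) a - 1) < exp (-(n : ℤ)) := by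
    intro v hv
    have h1 : (((z v)⁻¹ : (v.adicCompletion F)ˣ) : v.adicCompletion F) *
        algebraMap F (v.adicCompletion F) a - 1 = (((z v)⁻¹ : (v.adicCompletion F)ˣ) :
          v.adicCompletion F) * (algebraMap F (v.adicCompletion F) a - z v) := by
      rw [mul_sub, Units.inv_mul]
    rw [h1, map_mul, Units.val_inv_eq_inv_val, map_inv₀]
    calc _ ≤ exp (r v : ℤ) * exp (-((S.sup r + n + 1 : ℕ) : ℤ)) :=
          mul_le_mul' (hr v) (ha ⟨v, hv⟩).le
      _ < _ := by
        rw [← exp_add, exp_lt_exp]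
        have := Finset.le_sup (f := r) hv
        push_cast
        omega
  have ha0 : a ≠ 0 := by
    rintro rfl
    have h1 := key v₀ hv₀
    rw [map_zero, mul_zero, zero_sub, Valuation.map_neg, map_one, ← exp_zero, exp_lt_exp] at h1
    omega
  exact ⟨Units.mk0 a ha0, fun v hv => (key v hv).le⟩

/-- **the stabiliser of the base points in `S`.** -/
theorem exists_scalar_mem (S : Finset (HeightOneSpectrum (𝓞 F))) {γ : GL (Fin 2) F}
    (h : ∀ v ∈ S, γ • base U v = base U v) :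
    ∃ z : Fˣ, ∀ v ∈ S, gmap v (GeneralLinearGroup.scalar (Fin 2) z * γ) ∈ U.U v := by
  classical
  have h1 : ∀ v : HeightOneSpectrum (𝓞 F), ∃ (z : (v.adicCompletion F)ˣ)
      (k : GL (Fin 2) (v.adicCompletion F)),
      v ∈ S → k ∈ U.U v ∧ gmap v γ = GeneralLinearGroup.scalar (Fin 2) z * k := by
    intro v
    by_cases hv : v ∈ S
    · have h2 := h v hv
      rw [smulF_def, Cos.smul_mk, mul_one, Cos.mk_eq_one_iff] at h2
      obtain ⟨z, k, hk, hz⟩ := h2
      exact ⟨z, k, fun _ => ⟨hk, hz⟩⟩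
    · exact ⟨1, 1, fun h => absurd h hv⟩
  choose z k hzk using h1
  choose n hn using exists_scalar_mem_of_close U
  obtain ⟨a, ha⟩ := exists_units_close S (fun v => (z v)⁻¹) (S.sup n)
  refine ⟨a, fun v hv => ?_⟩
  obtain ⟨hk, hγ⟩ := hzk v hv
  have h3 : gmap v (GeneralLinearGroup.scalar (Fin 2) a * γ) =
      GeneralLinearGroup.scalar (Fin 2) (z v * Units.map (algebraMap F (v.adicCompletion F) :
        F →* v.adicCompletion F) a) * k v := by
    rw [map_mul, hγ, ← mul_assoc]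
    congr 1
    ext i j
    rw [GeneralLinearGroup.coe_mul, GeneralLinearGroup.coe_scalar, GeneralLinearGroup.coe_scalar]
    fin_cases i <;> fin_cases j <;> simp [Matrix.scalar_apply, mul_comm]
  rw [h3]
  refine mul_mem (hn v _ ?_) hk
  have h4 := ha v hv
  rw [inv_inv] at h4
  exact h4.trans (by
    rw [exp_le_exp]
    have := Finset.le_sup (f := n) hv
    omega)

theorem smul_base_eq_iff {v : HeightOneSpectrum (𝓞 F)} {γ : GL (Fin 2) F} :
    γ • base U v = base U v ↔
      ∃ z : Fˣ, gmap v (GeneralLinearGroup.scalar (Fin 2) z * γ) ∈ U.U v := by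
  constructor
  · intro h
    obtain ⟨z, hz⟩ := exists_scalar_mem U {v} (γ := γ) (by simpa using h)
    exact ⟨z, hz v (Finset.mem_singleton_self v)⟩
  · rintro ⟨z, hz⟩
    have h1 : (GeneralLinearGroup.scalar (Fin 2) z * γ) • base U v = base U v := by
      rw [smulF_def, Cos.smul_mk, mul_one]
      exact Cos.mk_eq_one_iff.mpr ⟨1, _, hz, by rw [map_one, one_mul]⟩
    rw [mul_smul, TrivScalar.scalar_smul] at h1
    exact h1

/-- the local space as a quotient of `GL₂(F)`. -/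
theorem exists_smul_base_one (v : HeightOneSpectrum (𝓞 F)) (d : Dv U v) :
    ∃ γ : GL (Fin 2) F, γ • base U v = d := by
  classical
  obtain ⟨γ, -, h⟩ := exists_smul_base U {v} (Function.update (base U) v d)
  exact ⟨γ, by simpa using h v (Finset.mem_singleton_self v)⟩

end Fermat.Agent.LT.Lvl

end
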