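import Fermat.Agent.LT.Level.Meas
import Fermat.Agent.LT.CT
import Fermat.Agent.LT.Kernel
import Fermat.Agent.LT.HK.Basic

/-!
# Functions on `Z_U` for different levels (helper34)

`p : D → D'` an equivariant map of discrete `G`-sets all of whose fibres have `N ≠ 0` elements
(`LevMap`), e.g. `D.map h : D U → D U'`, `N = levIndex U U'` (`levMap`).

* `LevMap.map_count`, `LevMap.map_prod`, `LevMap.lintegral_comp`, `LevMap.integral_comp`;
* `LevMap.isWeight`, `LevMap.map_withDensity`, `LevMap.memLp_comp_iff`, `LevMap.integral_comp_wt`;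
* `LevMap.isCusp_comp`;
* `avg` the averaging kernel, `avg_act_eq_iff`;
* `act_comp` : kernels compatible with `p`.
-/

set_option autoImplicit false
set_option linter.unusedSectionVars false

open MeasureTheory NumberField IsDedekindDomain Matrix
open scoped ENNReal

noncomputable section

namespace Fermat.Agent.LT.Lvl

/-- transport of a density. -/
theorem withDensity_comp_map {Z Z' : Type*} [MeasurableSpace Z] [MeasurableSpace Z']
    (μ : Measure Z) {f : Z → Z'} (hf : Measurable f) {w : Z' → ℝ≥0∞} (hw : Measurable w) :
    (μ.withDensity fun z => w (f z)).map f = (μ.map f).withDensity w := by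
  ext s hs
  rw [Measure.map_apply hf hs, withDensity_apply _ (hf hs), withDensity_apply _ hs,
    setLIntegral_map hs hw hf]

/-! ### Abstract part -/

/-- An equivariant map with fibres of constant finite cardinality. -/
structure LevMap (G : Type*) {D D' : Type*} [Group G] [MulAction G D] [MulAction G D']
    (p : D → D') (N : ℕ) : Prop where
  smul : ∀ (g : G) d, p (g • d) = g • p d
  card : ∀ d', Nat.card {d // p d = d'} = N
  ne : N ≠ 0

namespace LevMap

variable {G D D' : Type*} [Group G] [MulAction G D] [MulAction G D'] {p : D → D'} {N : ℕ}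

theorem surjective (h : LevMap G p N) : Function.Surjective p := by
  intro d
  have h1 := h.card d
  have : Nat.card {x : D // p x = d} ≠ 0 := by
    rw [h1]
    exact h.ne
  obtain ⟨⟨x, hx⟩⟩ := (Nat.card_ne_zero.mp this).1
  exact ⟨x, hx⟩

theorem finite_fiber (h : LevMap G p N) (d : D') : {x | p x = d}.Finite := by
  have : Nat.card {x : D // p x = d} ≠ 0 := by
    rw [h.card]
    exact h.ne
  exact (Nat.card_ne_zero.mp this).2

/-- the fibre as a `Finset` -/
def fib (h : LevMap G p N) (d : D') : Finset D := (h.finite_fiber d).toFinset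

@[simp] theorem mem_fib (h : LevMap G p N) {d : D'} {x : D} : x ∈ h.fib d ↔ p x = d := by
  simp [fib]

theorem card_fib (h : LevMap G p N) (d : D') : (h.fib d).card = N :=
  (Set.ncard_eq_toFinset_card _ (h.finite_fiber d)).symm.trans (h.card d)

section Meas

variable [MeasurableSpace D] [DiscreteMeasurableSpace D] [MeasurableSpace D']
  [MeasurableSingletonClass D'] [Countable D'] [Countable D]

theorem measurable (_ : LevMap G p N) : Measurable p := Measurable.of_discrete

theorem map_count (h : LevMap G p N) :
    (Measure.count : Measure D).map p = (N : ℝ≥0∞) • (Measure.count : Measure D') := by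
  refine Measure.ext_of_singleton fun d => ?_
  rw [Measure.map_apply Measurable.of_discrete (measurableSet_singleton d), Measure.smul_apply,
    Measure.count_singleton, smul_eq_mul, mul_one]
  have h1 : p ⁻¹' {d} = (h.fib d : Set D) := by
    ext x
    simp
  rw [h1, Measure.count_apply_finset, h.card_fib]

variable {X : Type*} [MeasurableSpace X] (μ : Measure X) [SFinite μ]

theorem map_prod (h : LevMap G p N) :
    (μ.prod (Measure.count : Measure D)).map (Prod.map id p) =
      (N : ℝ≥0∞) • μ.prod (Measure.count : Measure D') := by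
  rw [← Measure.map_prod_map _ _ measurable_id Measurable.of_discrete, Measure.map_id, h.map_count]
  have : SFinite ((N : ℝ≥0∞) • (Measure.count : Measure D')) := by
    rw [← h.map_count]
    infer_instance
  exact Measure.prod_smul_right _

theorem measurable_map (_ : LevMap G p N) : Measurable (Prod.map (id : X → X) p) :=
  measurable_id.prodMap Measurable.of_discrete

/-- **Integration over the fibres**: non-negative functions. -/
theorem lintegral_comp (h : LevMap G p N) {f : X × D' → ℝ≥0∞} (hf : Measurable f) :
    ∫⁻ z, f (z.1, p z.2) ∂μ.prod (Measure.count : Measure D) =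
      N * ∫⁻ z, f z ∂μ.prod (Measure.count : Measure D') := by
  rw [← smul_eq_mul, ← lintegral_smul_measure, ← h.map_prod μ, lintegral_map hf h.measurable_map]
  rfl

section Bochner

variable {E : Type*} [NormedAddCommGroup E] [NormedSpace ℝ E]

/-- **Integration over the fibres.** -/
theorem integral_comp (h : LevMap G p N) {f : X × D' → E}
    (hf : AEStronglyMeasurable f (μ.prod (Measure.count : Measure D'))) :
    ∫ z, f (z.1, p z.2) ∂μ.prod (Measure.count : Measure D) =
      (N : ℝ) • ∫ z, f z ∂μ.prod (Measure.count : Measure D') := by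
  have h1 := integral_smul_measure (μ := μ.prod (Measure.count : Measure D')) f (N : ℝ≥0∞)
  rw [ENNReal.toReal_natCast] at h1
  rw [← h1, ← h.map_prod μ, integral_map h.measurable_map.aemeasurable]
  · rfl
  · rw [h.map_prod μ]
    exact hf.smul_measure _

end Bochner

end Meas

/-! ### Weights -/

section Wt

variable [MeasurableSpace D] [DiscreteMeasurableSpace D] [MeasurableSpace D']
  [MeasurableSingletonClass D'] [Countable D'] [Countable D]
  {X : Type*} [MeasurableSpace X] [MulAction G X] {μ : Measure X} [SFinite μ]
  {w : X × D' → ℝ≥0∞}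

theorem map_smul (h : LevMap G p N) (g : G) (z : X × D) :
    Prod.map id p (g • z) = g • Prod.map (id : X → X) p z :=
  Prod.ext rfl (h.smul g z.2)

/-- **the pull back of a weight is a weight.** -/
theorem isWeight (h : LevMap G p N) (hw : IsWeight G w) :
    IsWeight G fun z : X × D => w (z.1, p z.2) where
  meas := hw.meas.comp h.measurable_map
  sum_eq z := by
    rw [← hw.sum_eq (z.1, p z.2)]
    refine tsum_congr fun g => ?_
    show w (g • z.1, p (g • z.2)) = w (g • z.1, g • p z.2)
    rw [h.smul]

theorem map_withDensity (h : LevMap G p N) (hw : Measurable w) :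
    ((μ.prod (Measure.count : Measure D)).withDensity fun z => w (z.1, p z.2)).map
        (Prod.map id p) = (N : ℝ≥0∞) • (μ.prod (Measure.count : Measure D')).withDensity w := by
  rw [← withDensity_smul_measure, ← h.map_prod μ]
  exact withDensity_comp_map _ h.measurable_map hw

theorem lintegral_comp_wt (h : LevMap G p N) (hw : Measurable w) {f : X × D' → ℝ≥0∞}
    (hf : Measurable f) :
    ∫⁻ z, f (z.1, p z.2) ∂(μ.prod (Measure.count : Measure D)).withDensity
        (fun z => w (z.1, p z.2)) =
      N * ∫⁻ z, f z ∂(μ.prod (Measure.count : Measure D')).withDensity w := by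
  rw [← smul_eq_mul, ← lintegral_smul_measure, ← h.map_withDensity hw,
    lintegral_map hf h.measurable_map]
  rfl

theorem integral_comp_wt {E : Type*} [NormedAddCommGroup E] [NormedSpace ℝ E]
    (h : LevMap G p N) (hw : Measurable w) {f : X × D' → E}
    (hf : AEStronglyMeasurable f ((μ.prod (Measure.count : Measure D')).withDensity w)) :
    ∫ z, f (z.1, p z.2) ∂(μ.prod (Measure.count : Measure D)).withDensity
        (fun z => w (z.1, p z.2)) =
      (N : ℝ) • ∫ z, f z ∂(μ.prod (Measure.count : Measure D')).withDensity w := by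
  have h1 := integral_smul_measure
    (μ := (μ.prod (Measure.count : Measure D')).withDensity w) f (N : ℝ≥0∞)
  rw [ENNReal.toReal_natCast] at h1
  rw [← h1, ← h.map_withDensity hw, integral_map h.measurable_map.aemeasurable]
  · rfl
  · rw [h.map_withDensity hw]
    exact hf.smul_measure _

theorem memLp_comp_iff {E : Type*} [NormedAddCommGroup E] (h : LevMap G p N)
    (hw : Measurable w) {f : X × D' → E}
    (hf : AEStronglyMeasurable f ((μ.prod (Measure.count : Measure D')).withDensity w))
    (q : ℝ≥0∞) :
    MemLp (fun z : X × D => f (z.1, p z.2)) q ((μ.prod (Measure.count : Measure D)).withDensity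
        (fun z => w (z.1, p z.2))) ↔
      MemLp f q ((μ.prod (Measure.count : Measure D')).withDensity w) := by
  have hN : (N : ℝ≥0∞) ≠ 0 := by exact_mod_cast h.ne
  have hN' : (N : ℝ≥0∞) ≠ ∞ := ENNReal.natCast_ne_top N
  have h1 : MemLp f q ((N : ℝ≥0∞) • (μ.prod (Measure.count : Measure D')).withDensity w) ↔
      MemLp f q ((μ.prod (Measure.count : Measure D')).withDensity w) := by
    constructor
    · intro h2
      have h3 := h2.smul_measure (c := (N : ℝ≥0∞)⁻¹) (ENNReal.inv_ne_top.mpr hN)
      rwa [smul_smul, ENNReal.inv_mul_cancel hN hN', one_smul] at h3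
    · intro h2
      exact h2.smul_measure hN'
  rw [← h1, ← h.map_withDensity hw]
  refine (memLp_map_measure_iff ?_ h.measurable_map.aemeasurable).symm
  rw [h.map_withDensity hw]
  exact hf.smul_measure _

end Wt

/-! ### The averaging kernel -/

section Avg

open Classical in
/-- **The averaging kernel** over the fibres. -/
def avg (h : LevMap G p N) : HK G D :=
  HK.of (fun d d' => if p d = p d' then (N : ℂ)⁻¹ else 0)
    (fun g d d' => by simp only [h.smul, smul_left_cancel_iff])
    (fun d => (h.finite_fiber (p d)).subset fun d' hd' => by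
      by_contra hne
      exact hd' (if_neg fun h1 => hne h1.symm))
    (fun d' => (h.finite_fiber (p d')).subset fun d hd => by
      by_contra hne
      exact hd (if_neg hne))

open Classical in
theorem ker_avg (h : LevMap G p N) (d d' : D) :
    h.avg.ker d d' = if p d = p d' then (N : ℂ)⁻¹ else 0 := HK.ker_of _ _ _ _ _ _

variable {E : Type*} [AddCommGroup E] [Module ℂ E]

theorem avg_act_apply (h : LevMap G p N) (f : D → E) (d : D) :
    h.avg.act f d = (N : ℂ)⁻¹ • ∑ x ∈ h.fib (p d), f x := by
  classical
  rw [HK.act_apply_sum (s := h.fib (p d)), Finset.smul_sum]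
  · refine Finset.sum_congr rfl fun x hx => ?_
    rw [ker_avg, if_pos (h.mem_fib.mp hx).symm]
  · intro x hx
    rw [ker_avg] at hx
    by_contra h1
    exact hx (if_neg fun h2 => h1 (h.mem_fib.mpr h2.symm))

theorem avg_act_comp (h : LevMap G p N) (f : D' → E) :
    h.avg.act (fun d => f (p d)) = fun d => f (p d) := by
  funext d
  rw [avg_act_apply, Finset.sum_congr rfl fun x hx => by rw [h.mem_fib.mp hx], Finset.sum_const,
    h.card_fib, ← Nat.cast_smul_eq_nsmul ℂ, smul_smul, inv_mul_cancel₀ (by exact_mod_cast h.ne),
    one_smul]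

/-- The fixed functions of the averaging operator come from below. -/
theorem avg_act_eq_iff (h : LevMap G p N) (f : D → E) :
    h.avg.act f = f ↔ ∃ f' : D' → E, f = fun d => f' (p d) := by
  constructor
  · intro hf
    obtain ⟨s, hs⟩ := h.surjective.hasRightInverse
    refine ⟨fun d => f (s d), funext fun d => ?_⟩
    rw [← hf]
    simp only [avg_act_apply, hs (p d)]
  · rintro ⟨f', rfl⟩
    exact h.avg_act_comp f'

theorem avg_mul_avg (h : LevMap G p N) : h.avg * h.avg = h.avg := by
  classical
  ext x z
  rw [HK.ker_mul_sum (s := h.fib (p x))]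
  · rw [Finset.sum_congr rfl fun y hy => by
      rw [ker_avg, ker_avg, if_pos (h.mem_fib.mp hy).symm, h.mem_fib.mp hy], Finset.sum_const,
      h.card_fib, ker_avg, nsmul_eq_mul, ← mul_assoc, mul_inv_cancel₀ (by exact_mod_cast h.ne),
      one_mul]
  · intro y hy
    rw [ker_avg] at hy
    by_contra h1
    exact hy (if_neg fun h2 => h1 (h.mem_fib.mpr h2.symm))

theorem star_avg (h : LevMap G p N) : star h.avg = h.avg := by
  classical
  ext x y
  rw [HK.ker_star, ker_avg, ker_avg]
  by_cases hxy : p x = p y
  · rw [if_pos hxy, if_pos hxy.symm]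
    simp
  · rw [if_neg hxy, if_neg (Ne.symm hxy), star_zero]

end Avg

/-! ### Compatible kernels -/

section Comp

/-- `a` on `D` lifts `a'` on `D'`. -/
def Lifts (h : LevMap G p N) (a : HK G D) (a' : HK G D') : Prop :=
  ∀ d d', ∑ x ∈ h.fib d', a.ker d x = a'.ker (p d) d'

variable {E : Type*} [AddCommGroup E] [Module ℂ E]

theorem Lifts.act_comp {h : LevMap G p N} {a : HK G D} {a' : HK G D'} (ha : h.Lifts a a')
    (f : D' → E) : a.act (fun d => f (p d)) = fun d => a'.act f (p d) := by
  classical
  funext d
  set s := (a.finite_row d).toFinset.image p ∪ (a'.finite_row (p d)).toFinset with hs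
  rw [HK.act_apply_sum a' f (p d) (s := s) fun y hy => by
    rw [hs, Finset.mem_union]; right; simpa using hy]
  rw [HK.act_apply_sum a _ d (s := s.biUnion h.fib) fun x hx => by
    rw [Finset.mem_biUnion]
    refine ⟨p x, ?_, h.mem_fib.mpr rfl⟩
    rw [hs, Finset.mem_union]
    left
    exact Finset.mem_image_of_mem p (by simpa using hx)]
  rw [Finset.sum_biUnion]
  · refine Finset.sum_congr rfl fun y _ => ?_
    rw [← ha d y, Finset.sum_smul]
    exact Finset.sum_congr rfl fun x hx => by rw [h.mem_fib.mp hx]
  · intro y _ y' _ hne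
    rw [Function.onFun, Finset.disjoint_left]
    intro x hx hx'
    exact hne ((h.mem_fib.mp hx).symm.trans (h.mem_fib.mp hx'))

end Comp

end LevMap

/-! ### The concrete case -/

section Concrete

variable {F : Type*} [Field F] [NumberField F] {U U' : Lev F}

/-- **Change of level.** -/
theorem levMap (h : U ≤ U') : LevMap (GL (Fin 2) F) (D.map h) (levIndex U U') where
  smul := D.map_smul h
  card := D.card_fiber h
  ne := levIndex_ne_zero h

/-- The same for `PGL₂(F)`. -/
theorem levMapPG (h : U ≤ U') : LevMap (PG F) (D.map h) (levIndex U U') where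
  smul g d := by
    obtain ⟨g, rfl⟩ := QuotientGroup.mk_surjective g
    exact D.map_smul h g d
  card := D.card_fiber h
  ne := levIndex_ne_zero h

variable [IsTotallyComplex F]

/-- **the pull back of a cuspidal function is cuspidal.** -/
theorem isCusp_comp {D D' : Type*} [MulAction (GL (Fin 2) F) D] [MulAction (GL (Fin 2) F) D']
    {p : D → D'} (hp : ∀ (g : GL (Fin 2) F) d, p (g • d) = g • p d) {f : Xi F × D' → ℂ}
    (hf : IsCusp f) : IsCusp fun z : Xi F × D => f (z.1, p z.2) := by
  intro d m hm h
  refine hf (p d) m hm fun a => ?_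
  rw [← hp, h a]

end Concrete

end Fermat.Agent.LT.Lvl

end
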