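import Fermat.Agent.LT.Level.Pull
import Fermat.Agent.LT.HK.Prod

/-!
# Product kernels and change of level (helper34)

* `LiftsAt h v a a'` : the kernel `a` on `Dv U v` lifts the kernel `a'` on `Dv U' v`;
* `lifts_kp`, `lifts_single` : then the product kernels on `D U`, `D U'` are compatible.
-/

set_option autoImplicit false

open MeasureTheory NumberField IsDedekindDomain Matrix Function Set

noncomputable section

namespace Fermat.Agent.LT.Lvl

variable {F : Type*} [Field F] [NumberField F] {U U' : Lev F}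

theorem finite_locFib (h : U ≤ U') (v : HeightOneSpectrum (𝓞 F)) (y : Dv U' v) :
    {x : Dv U v | Cos.map (h v) x = y}.Finite := finite_Cos_fiber h v y

/-- the local fibre -/
def locFib (h : U ≤ U') (v : HeightOneSpectrum (𝓞 F)) (y : Dv U' v) : Finset (Dv U v) :=
  (finite_locFib h v y).toFinset

@[simp] theorem mem_locFib {h : U ≤ U'} {v : HeightOneSpectrum (𝓞 F)} {y : Dv U' v}
    {x : Dv U v} : x ∈ locFib h v y ↔ Cos.map (h v) x = y := by
  rw [locFib, Set.Finite.mem_toFinset]
  rfl

/-- The kernel `a` at `v` for the level `U` lifts the kernel `a'` for the level `U'`. -/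
def LiftsAt (h : U ≤ U') (v : HeightOneSpectrum (𝓞 F)) (a : HK (GL (Fin 2) F) (Dv U v))
    (a' : HK (GL (Fin 2) F) (Dv U' v)) : Prop :=
  ∀ d y, ∑ x ∈ locFib h v y, a.ker d x = a'.ker (Cos.map (h v) d) y

theorem liftsAt_one (h : U ≤ U') (v : HeightOneSpectrum (𝓞 F)) : LiftsAt h v 1 1 := by
  classical
  intro d y
  simp only [HK.ker_one]
  rw [Finset.sum_ite_eq]
  by_cases hd : Cos.map (h v) d = y
  · rw [if_pos (mem_locFib.mpr hd), if_pos hd]
  · rw [if_neg fun h1 => hd (mem_locFib.mp h1), if_neg hd]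

theorem LiftsAt.mul {h : U ≤ U'} {v : HeightOneSpectrum (𝓞 F)}
    {a b : HK (GL (Fin 2) F) (Dv U v)} {a' b' : HK (GL (Fin 2) F) (Dv U' v)}
    (ha : LiftsAt h v a a') (hb : LiftsAt h v b b') : LiftsAt h v (a * b) (a' * b') := by
  classical
  intro d y
  set s := (a.finite_row d).toFinset with hs
  set t := s.image (Cos.map (h v)) ∪ (a'.finite_row (Cos.map (h v) d)).toFinset with ht
  have h1 : ∀ x, (a * b).ker d x = ∑ z ∈ s, a.ker d z * b.ker z x := fun x =>
    HK.ker_mul_sum a b d x fun z hz => by simpa [hs] using hz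
  simp only [h1]
  rw [Finset.sum_comm, HK.ker_mul_sum a' b' _ y (s := t) fun z hz => by
    rw [ht, Finset.mem_union]; right; simpa using hz]
  have h2 : ∀ z ∈ s, ∑ x ∈ locFib h v y, a.ker d z * b.ker z x =
      a.ker d z * b'.ker (Cos.map (h v) z) y := fun z _ => by
    rw [← Finset.mul_sum, hb z y]
  rw [Finset.sum_congr rfl h2]
  have h3 : ∀ z' ∈ t, a'.ker (Cos.map (h v) d) z' * b'.ker z' y =
      ∑ z ∈ s with Cos.map (h v) z = z', a.ker d z * b'.ker (Cos.map (h v) z) y := by
    intro z' _
    rw [← ha d z', Finset.sum_mul]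
    refine (Finset.sum_subset_zero_on_sdiff (s₁ := s.filter fun z => Cos.map (h v) z = z')
      (s₂ := locFib h v z') (fun z hz => ?_) (fun z hz => ?_) fun z hz => ?_).symm
    · exact mem_locFib.mpr (Finset.mem_filter.mp hz).2
    · rw [Finset.mem_sdiff, mem_locFib, Finset.mem_filter, not_and] at hz
      have h4 : z ∉ s := fun h5 => hz.2 h5 hz.1
      have h5 : a.ker d z = 0 := by
        by_contra h6
        exact h4 (by simpa [hs] using h6)
      rw [h5, zero_mul]
    · rw [(Finset.mem_filter.mp hz).2]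
  rw [Finset.sum_congr rfl h3]
  exact (Finset.sum_fiberwise_of_maps_to (fun z hz => by
    rw [ht, Finset.mem_union]
    left
    exact Finset.mem_image_of_mem _ hz) _).symm

theorem LiftsAt.add {h : U ≤ U'} {v : HeightOneSpectrum (𝓞 F)}
    {a b : HK (GL (Fin 2) F) (Dv U v)} {a' b' : HK (GL (Fin 2) F) (Dv U' v)}
    (ha : LiftsAt h v a a') (hb : LiftsAt h v b b') : LiftsAt h v (a + b) (a' + b') := by
  intro d y
  simp only [HK.ker_add, Finset.sum_add_distrib, ha d y, hb d y]

theorem LiftsAt.smul {h : U ≤ U'} {v : HeightOneSpectrum (𝓞 F)}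
    {a : HK (GL (Fin 2) F) (Dv U v)} {a' : HK (GL (Fin 2) F) (Dv U' v)}
    (c : ℂ) (ha : LiftsAt h v a a') : LiftsAt h v (c • a) (c • a') := by
  intro d y
  simp only [HK.ker_smul, ← Finset.mul_sum, ha d y]

/-- If the levels agree at `v`, a kernel lifts its transport. -/
theorem liftsAt_of_eq {h : U ≤ U'} {v : HeightOneSpectrum (𝓞 F)} (he : U.U v = U'.U v)
    {a : HK (GL (Fin 2) F) (Dv U v)} {a' : HK (GL (Fin 2) F) (Dv U' v)}
    (ha : ∀ x y, a'.ker (Cos.map (h v) x) (Cos.map (h v) y) = a.ker x y) : LiftsAt h v a a' := by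
  intro d y
  obtain ⟨x, rfl⟩ := Cos.map_surjective (h v) y
  have h1 : locFib h v (Cos.map (h v) x) = {x} := by
    ext z
    rw [mem_locFib, Finset.mem_singleton]
    exact ⟨fun h2 => Cos.map_injective_of_eq (h v) he h2, fun h2 => by rw [h2]⟩
  rw [h1, Finset.sum_singleton, ha]

open Classical in
/-- **The product kernels of compatible kernels are compatible.** -/
theorem lifts_kp (h : U ≤ U') {k : ∀ v, HK (GL (Fin 2) F) (Dv U v)}
    {k' : ∀ v, HK (GL (Fin 2) F) (Dv U' v)} (hk : {v | k v ≠ 1}.Finite)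
    (hk' : {v | k' v ≠ 1}.Finite) (hl : ∀ v, LiftsAt h v (k v) (k' v)) :
    (levMap h).Lifts (HK.kp k hk) (HK.kp k' hk') := by
  intro d y
  set f : ∀ v, Dv U v → ℂ := fun v x =>
    if Cos.map (h v) x = y v then (k v).ker (d v) x else 0 with hf
  have hadm : RProd.Adm (base U) f := by
    refine ⟨fun v => ((k v).finite_row (d v)).subset fun x hx h0 => hx ?_, ?_⟩
    · show (if Cos.map (h v) x = y v then (k v).ker (d v) x else 0) = 0
      rw [h0, ite_self]
    · refine ((hk.union d.fin).union y.fin).subset fun v hv => ?_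
      by_contra hcon
      simp only [mem_union, mem_ofPred_eq, not_or, not_not] at hcon
      obtain ⟨⟨h1, h2⟩, h3⟩ := hcon
      refine hv (funext fun x => ?_)
      rw [hf]
      beta_reduce
      rw [h1, h2, h3, HK.ker_one]
      by_cases hx : x = base U v
      · rw [if_pos hx, if_pos hx.symm, if_pos (by rw [hx]; rfl)]
      · rw [if_neg hx, if_neg (Ne.symm hx), ite_self]
  have h1 : ∑ x ∈ (levMap h).fib y, (HK.kp k hk : HK (GL (Fin 2) F) (D U)).ker d x =
      ∑ᶠ x : D U, RProd.fprod f x := by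
    have hsupp : support (fun x : D U => RProd.fprod f x) ⊆ ((levMap h).fib y : Set (D U)) := by
      intro x hx
      rw [Finset.mem_coe, LevMap.mem_fib]
      refine RProd.ext' fun v => ?_
      have h2 := RProd.ne_zero_of_fprod_ne_zero hadm.base_eq hx v
      by_contra h3
      exact h2 (if_neg h3)
    rw [finsum_eq_sum_of_support_subset _ hsupp]
    refine Finset.sum_congr rfl fun x hx => ?_
    rw [HK.ker_kp]
    refine finprod_congr fun v => ?_
    rw [LevMap.mem_fib] at hx
    have hx' : Cos.map (h v) (x v) = y v := congrArg (fun z : D U' => z v) hx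
    exact (if_pos hx').symm
  rw [h1, hadm.finsum_fprod, HK.ker_kp]
  refine finprod_congr fun v => ?_
  rw [D.map_apply, ← hl v (d v) (y v), finsum_eq_sum_of_support_subset (s := locFib h v (y v))]
  · exact Finset.sum_congr rfl fun x hx => if_pos (mem_locFib.mp hx)
  · intro x hx
    rw [Finset.mem_coe, mem_locFib]
    by_contra h2
    exact hx (if_neg h2)

/-- **The kernel at one place.** -/
theorem lifts_single [DecidableEq (HeightOneSpectrum (𝓞 F))] (h : U ≤ U')
    {v : HeightOneSpectrum (𝓞 F)} {a : HK (GL (Fin 2) F) (Dv U v)}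
    {a' : HK (GL (Fin 2) F) (Dv U' v)} (ha : LiftsAt h v a a') :
    (levMap h).Lifts (HK.single (base U) v a) (HK.single (base U') v a') := by
  rw [HK.single_eq_kp, HK.single_eq_kp]
  refine lifts_kp h _ _ fun w => ?_
  by_cases hw : w = v
  · subst hw
    rw [Function.update_self, Function.update_self]
    exact ha
  · rw [Function.update_of_ne hw, Function.update_of_ne hw]
    exact liftsAt_one h w

end Fermat.Agent.LT.Lvl

end
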